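import Mathlib
import Fermat.Prelude.Def_FLTPrelim_FreyPackage

/-!
# Local data of the Frey curve at a prime `q`

For a Frey package and a prime `q` we choose a rational `2`-torsion point `(e, -e/2)` of the
Frey curve `y^2 + x y = x^3 + a₂ x^2 + a₄ x` such that the translated model
`y^2 = x^3 + M x^2 + C x` has `M = m / 4`, `C = ± g^p / 16` and `M^2 - 4 C = (d / 4)^2` with
`q ∤ d`.
-/

set_option autoImplicit false

namespace Fermat.Agent.S05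

theorem frey_local_data (P : FreyPackage) {q : ℕ} (hq : q.Prime) :
    ∃ (e : ℚ) (m g d ε : ℤ),
      (ε = 1 ∨ ε = -1) ∧ g ≠ 0 ∧ d ≠ 0 ∧ ¬ (q : ℤ) ∣ d ∧
      e^3 + (P.freyCurve.a₂ + 1/4)*e^2 + P.freyCurve.a₄*e = 0 ∧
      P.freyCurve.a₂ + 1/4 + 3*e = (m : ℚ)/4 ∧
      3*e^2 + 2*(P.freyCurve.a₂ + 1/4)*e + P.freyCurve.a₄ = (ε : ℚ) * (g : ℚ)^P.p / 16 ∧
      ((m : ℚ)/4)^2 - 4 * ((ε : ℚ) * (g : ℚ)^P.p / 16) = ((d : ℚ)/4)^2 := by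
  have hqZ : Prime (q : ℤ) := Nat.prime_iff_prime_int.mp hq
  have hF : (P.a : ℚ) ^ P.p + (P.b : ℚ) ^ P.p = (P.c : ℚ) ^ P.p := by
    exact_mod_cast P.hFLT
  have ha₂ : P.freyCurve.a₂ = ((P.b : ℚ) ^ P.p - 1 - (P.a : ℚ) ^ P.p) / 4 := rfl
  have ha₄ : P.freyCurve.a₄ = -((P.a : ℚ) ^ P.p) * ((P.b : ℚ) ^ P.p) / 16 := rfl
  by_cases hqc : (q : ℤ) ∣ P.c
  · -- `q ∣ c`: translate by `e = a^p / 4`
    have hqb : ¬ (q : ℤ) ∣ P.b := by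
      intro hqb
      have h1 : (q : ℤ) ∣ gcd P.b P.c := dvd_gcd hqb hqc
      rw [P.hgcdbc] at h1
      exact hqZ.not_dvd_one h1
    refine ⟨(P.a : ℚ) ^ P.p / 4, P.a ^ P.p + P.c ^ P.p, P.a * P.c, P.b ^ P.p, 1, Or.inl rfl,
      mul_ne_zero P.ha0 P.hc0, pow_ne_zero _ P.hb0, fun h => hqb (hqZ.dvd_of_dvd_pow h),
      ?_, ?_, ?_, ?_⟩
    · rw [ha₂, ha₄]; ring
    · rw [ha₂]; push_cast; linear_combination (1 / 4 : ℚ) * hF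
    · rw [ha₂, ha₄]; push_cast; rw [mul_pow]
      linear_combination ((P.a : ℚ) ^ P.p / 16) * hF
    · push_cast; rw [mul_pow]
      linear_combination ((-(P.c : ℚ) ^ P.p + (P.a : ℚ) ^ P.p - (P.b : ℚ) ^ P.p) / 16) * hF
  · -- `q ∤ c`: no translation
    refine ⟨0, P.b ^ P.p - P.a ^ P.p, P.a * P.b, P.c ^ P.p, -1, Or.inr rfl,
      mul_ne_zero P.ha0 P.hb0, pow_ne_zero _ P.hc0, fun h => hqc (hqZ.dvd_of_dvd_pow h),
      ?_, ?_, ?_, ?_⟩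
    · ring
    · rw [ha₂]; push_cast; ring
    · rw [ha₂, ha₄]; push_cast; rw [mul_pow]; ring
    · push_cast; rw [mul_pow]
      linear_combination (((P.a : ℚ) ^ P.p + (P.b : ℚ) ^ P.p + (P.c : ℚ) ^ P.p) / 16) * hF

end Fermat.Agent.S05
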