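import Fermat.Agent.S05.Chord
import Mathlib.RingTheory.Valuation.Basic

/-!
# Torsion points of `y^2 = x^3 + M x^2 + C x` of order prime to the residue characteristic

Let `v` be a valuation on a field `K` and let `W` be the curve `y^2 = x^3 + M x^2 + C x` with
`v M ≤ 1`, `v C ≤ 1`.  The points `(x, y)` with `1 < v x` behave like the points of a formal
group with parameter `z = x / y`: if `P₁, P₂` are two such points which are not inverse to each
other then `P₁ + P₂ = (x₃, y₃)` with `1 < v x₃` and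
`v (z₃ - (z₁ + z₂)) < v (z₁ + z₂)`.  Consequently `k • P` has parameter `≡ k z` and
a point `P = (x, y)` killed by an integer `n` with `v n = 1` has `v x ≤ 1`.
-/

set_option autoImplicit false

namespace Fermat.Agent.S05

open WeierstrassCurve WeierstrassCurve.Affine

section fg

variable {K : Type*} [Field K] {Γ₀ : Type*} [LinearOrderedCommGroupWithZero Γ₀]
  (v : Valuation K Γ₀)

/-- Basic data of a point `(x, y)` of `y^2 = x^3 + M x^2 + C x` with `1 < v x`. -/
theorem fg_point {M C : K} (hM : v M ≤ 1) (hC : v C ≤ 1) {x y : K}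
    (hE : y ^ 2 = x ^ 3 + M * x ^ 2 + C * x) (hx : 1 < v x) :
    x ≠ 0 ∧ y ≠ 0 ∧ v y ^ 2 = v x ^ 3 := by
  have hx0 : x ≠ 0 := by
    rintro rfl
    simp at hx
  have hvx0 : v x ≠ 0 := (Valuation.ne_zero_iff v).mpr hx0
  have h1 : v (M * x ^ 2 + C * x) < v (x ^ 3) := by
    apply Valuation.map_add_lt
    · rw [map_mul, map_pow, map_pow]
      calc v M * v x ^ 2 ≤ 1 * v x ^ 2 := by gcongr
        _ = v x ^ 2 := one_mul _
        _ < v x ^ 3 := pow_lt_pow_right₀ hx (by norm_num)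
    · rw [map_mul, map_pow]
      calc v C * v x ≤ 1 * v x := by gcongr
        _ = v x ^ 1 := by simp
        _ < v x ^ 3 := pow_lt_pow_right₀ hx (by norm_num)
  have h2 : v (y ^ 2) = v (x ^ 3) := by
    rw [hE, add_assoc]; exact Valuation.map_add_eq_of_lt_left v h1
  have h3 : v y ^ 2 = v x ^ 3 := by simpa [map_pow] using h2
  refine ⟨hx0, ?_, h3⟩
  rintro rfl
  rw [map_zero] at h3
  exact hvx0 (pow_eq_zero_iff (n := 3) (by norm_num) |>.mp (by rw [← h3]; simp))

/-- The polynomial form of `z₃ (1 + (M - 2 C ℓ / β) z₁ z₂) = z₁ + z₂`. -/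
theorem fg_identity {M C x₁ y₁ x₂ y₂ x₃ y₃ ℓ β : K}
    (h : Chord M C x₁ y₁ x₂ y₂ x₃ y₃ ℓ β) :
    x₃ * (β * y₁ * y₂ + (M * β - 2 * C * ℓ) * x₁ * x₂) = y₃ * (x₁ * y₂ + x₂ * y₁) * β := by
  have hM : M = ℓ ^ 2 - (x₁ + x₂ + x₃) := by linear_combination h.e1
  have hC : C = x₁ * x₂ + x₁ * x₃ + x₂ * x₃ + 2 * ℓ * β := by linear_combination -h.e2
  have hy₃ : y₃ = -(ℓ * x₃ + β) := by linear_combination -h.l3
  rw [hM, hC, hy₃, h.l1, h.l2]
  linear_combination (-(x₃ * (2 * ℓ * (x₁ + x₂) + β) + 2 * ℓ * x₁ * x₂ + β * (x₁ + x₂))) * h.e3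

/-- The core estimate: the sum of two points in the "formal group" `1 < v x`. -/
theorem fg_core {M C : K} (hM : v M ≤ 1) (hC : v C ≤ 1)
    {x₁ y₁ x₂ y₂ x₃ y₃ ℓ β : K} (hch : Chord M C x₁ y₁ x₂ y₂ x₃ y₃ ℓ β)
    (hE₁ : y₁ ^ 2 = x₁ ^ 3 + M * x₁ ^ 2 + C * x₁)
    (hE₂ : y₂ ^ 2 = x₂ ^ 3 + M * x₂ ^ 2 + C * x₂)
    (hE₃ : y₃ ^ 2 = x₃ ^ 3 + M * x₃ ^ 2 + C * x₃)
    (hx₁ : 1 < v x₁) (hx₂ : 1 < v x₂) :
    1 < v x₃ ∧ v (x₃ / y₃ - (x₁ / y₁ + x₂ / y₂)) < v (x₁ / y₁ + x₂ / y₂) := by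
  obtain ⟨hx₁0, hy₁0, hvy₁⟩ := fg_point v hM hC hE₁ hx₁
  obtain ⟨hx₂0, hy₂0, hvy₂⟩ := fg_point v hM hC hE₂ hx₂
  -- abbreviations for the valuations
  set a := v x₁ with ha_def
  set b := v x₂ with hb_def
  set p := v y₁ with hp_def
  set q := v y₂ with hq_def
  have ha0 : 0 < a := zero_lt_one.trans hx₁
  have hb0 : 0 < b := zero_lt_one.trans hx₂
  have hap : a < p := by
    apply lt_of_pow_lt_pow_left₀ 2 zero_le
    rw [hvy₁]; exact pow_lt_pow_right₀ hx₁ (by norm_num)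
  have hbq : b < q := by
    apply lt_of_pow_lt_pow_left₀ 2 zero_le
    rw [hvy₂]; exact pow_lt_pow_right₀ hx₂ (by norm_num)
  have hp1 : 1 < p := hx₁.trans hap
  have hq1 : 1 < q := hx₂.trans hbq
  have hp0 : 0 < p := zero_lt_one.trans hp1
  have hq0 : 0 < q := zero_lt_one.trans hq1
  have hab1 : 1 < a * b := lt_of_lt_of_le hx₁ (le_mul_of_one_le_right' hx₂.le)
  have hab0 : a * b ≠ 0 := (zero_lt_one.trans hab1).ne'
  -- the element `s = x₂ y₁ + x₁ y₂`
  have hs : v (x₂ * y₁ + x₁ * y₂) ^ 2 < (a * b) ^ 3 := by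
    rcases Valuation.map_add' v (x₂ * y₁) (x₁ * y₂) with h | h
    · calc v (x₂ * y₁ + x₁ * y₂) ^ 2 ≤ v (x₂ * y₁) ^ 2 := pow_le_pow_left₀ zero_le h 2
        _ = a ^ 3 * b ^ 2 := by rw [map_mul, mul_pow, hvy₁, mul_comm]
        _ < a ^ 3 * b ^ 3 := by
          have : b ^ 2 < b ^ 3 := pow_lt_pow_right₀ hx₂ (by norm_num)
          have : 0 < a ^ 3 := pow_pos ha0 3
          gcongr
        _ = (a * b) ^ 3 := (mul_pow a b 3).symm
    · calc v (x₂ * y₁ + x₁ * y₂) ^ 2 ≤ v (x₁ * y₂) ^ 2 := pow_le_pow_left₀ zero_le h 2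
        _ = a ^ 2 * b ^ 3 := by rw [map_mul, mul_pow, hvy₂]
        _ < a ^ 3 * b ^ 3 := by
          have : a ^ 2 < a ^ 3 := pow_lt_pow_right₀ hx₁ (by norm_num)
          have : 0 < b ^ 3 := pow_pos hb0 3
          gcongr
        _ = (a * b) ^ 3 := (mul_pow a b 3).symm
  have hvC : v (C - x₁ * x₂) = a * b := by
    rw [Valuation.map_sub_eq_of_lt_right, map_mul]
    rw [map_mul]; exact lt_of_le_of_lt hC hab1
  have hBS : v β * v (x₂ * y₁ + x₁ * y₂) = (a * b) ^ 2 := by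
    have := congrArg v hch.beta_mul_add
    rw [map_mul, map_mul, map_mul, hvC] at this
    rw [this, pow_two]
  have he3 : a * b * v x₃ = v β ^ 2 := by
    have := congrArg v hch.e3
    rwa [map_mul, map_mul, map_pow] at this
  have hkey : v x₃ * v (x₂ * y₁ + x₁ * y₂) ^ 2 = (a * b) ^ 3 := by
    apply mul_left_cancel₀ hab0
    calc a * b * (v x₃ * v (x₂ * y₁ + x₁ * y₂) ^ 2)
        = (a * b * v x₃) * v (x₂ * y₁ + x₁ * y₂) ^ 2 := (mul_assoc _ _ _).symm
      _ = (v β * v (x₂ * y₁ + x₁ * y₂)) ^ 2 := by rw [he3, mul_pow]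
      _ = a * b * (a * b) ^ 3 := by rw [hBS, ← pow_mul, ← pow_succ']
  have hx₃ : 1 < v x₃ := by
    by_contra hc
    have hc := not_lt.mp hc
    have : v x₃ * v (x₂ * y₁ + x₁ * y₂) ^ 2 < (a * b) ^ 3 :=
      calc v x₃ * v (x₂ * y₁ + x₁ * y₂) ^ 2 ≤ 1 * v (x₂ * y₁ + x₁ * y₂) ^ 2 := by gcongr
        _ = v (x₂ * y₁ + x₁ * y₂) ^ 2 := one_mul _
        _ < (a * b) ^ 3 := hs
    exact absurd hkey this.ne
  refine ⟨hx₃, ?_⟩
  obtain ⟨hx₃0, hy₃0, -⟩ := fg_point v hM hC hE₃ hx₃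
  -- `s ≠ 0`, `β ≠ 0`, `1 < v β`
  have hs0 : x₂ * y₁ + x₁ * y₂ ≠ 0 := by
    intro h0
    rw [h0, map_zero] at hkey
    have : (a * b) ^ 3 = 0 := by rw [← hkey]; simp
    exact hab0 (pow_eq_zero_iff (n := 3) (by norm_num) |>.mp this)
  have hB1 : 1 < v β := by
    by_contra hc
    have hc := not_lt.mp hc
    have h1 : v β ^ 2 ≤ 1 := pow_le_one₀ zero_le hc
    have h2 : 1 < a * b * v x₃ := lt_of_lt_of_le hab1 (le_mul_of_one_le_right' hx₃.le)
    rw [he3] at h2
    exact absurd h1 (not_le.mpr h2)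
  have hB0 : 0 < v β := zero_lt_one.trans hB1
  have hβ0 : β ≠ 0 := (Valuation.ne_zero_iff v).mp hB0.ne'
  -- the main term `T` and the error term `E`
  have hv2 : v (2 : K) ≤ 1 := by
    have : (2 : K) = 1 + 1 := by norm_num
    rw [this]
    exact Valuation.map_add_le v (by simp) (by simp)
  have hL : v ℓ * a ≤ max p (v β) := by
    have : ℓ * x₁ = y₁ - β := by linear_combination -hch.l1
    rw [← map_mul, this]
    exact Valuation.map_sub v _ _
  have hET : v ((M * β - 2 * C * ℓ) * x₁ * x₂) < v (β * y₁ * y₂) := by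
    have hT : v (β * y₁ * y₂) = v β * (p * q) := by rw [map_mul, map_mul, mul_assoc]
    have hE : v ((M * β - 2 * C * ℓ) * x₁ * x₂) = v (M * β - 2 * C * ℓ) * (a * b) := by
      rw [map_mul, map_mul, mul_assoc]
    rw [hT, hE]
    have habpq : a * b < p * q := by gcongr
    have hab00 : 0 < a * b := zero_lt_one.trans hab1
    rcases le_max_iff.mp (Valuation.map_sub v (M * β) (2 * C * ℓ)) with h | h
    · calc v (M * β - 2 * C * ℓ) * (a * b) ≤ v (M * β) * (a * b) := by gcongr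
        _ ≤ v β * (a * b) := by
          rw [map_mul]
          calc v M * v β * (a * b) ≤ 1 * v β * (a * b) := by gcongr
            _ = v β * (a * b) := by rw [one_mul]
        _ < v β * (p * q) := by gcongr
    · have h2C : v (2 * C * ℓ) ≤ v ℓ := by
        rw [map_mul, map_mul]
        calc v 2 * v C * v ℓ ≤ 1 * 1 * v ℓ := by gcongr
          _ = v ℓ := by rw [one_mul, one_mul]
      have h3 : v (M * β - 2 * C * ℓ) * (a * b) ≤ max p (v β) * b :=
        calc v (M * β - 2 * C * ℓ) * (a * b) ≤ v ℓ * (a * b) := by gcongr; exact h.trans h2C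
          _ = v ℓ * a * b := (mul_assoc _ _ _).symm
          _ ≤ max p (v β) * b := by gcongr
      refine lt_of_le_of_lt h3 ?_
      rcases le_total p (v β) with hpB | hpB
      · rw [max_eq_right hpB]
        have : b < p * q :=
          calc b < q := hbq
            _ = 1 * q := (one_mul q).symm
            _ ≤ p * q := by gcongr
        gcongr
      · rw [max_eq_left hpB]
        calc p * b = 1 * (p * b) := (one_mul _).symm
          _ < v β * (p * q) := by
            have : p * b < p * q := by gcongr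
            have : 0 < p * b := mul_pos hp0 hb0
            gcongr
            exact zero_le
  -- conclusion
  have hsum : x₁ / y₁ + x₂ / y₂ ≠ 0 := by
    intro h0
    apply hs0
    have : x₂ * y₁ + x₁ * y₂ = (x₁ / y₁ + x₂ / y₂) * (y₁ * y₂) := by field_simp; ring
    rw [this, h0, zero_mul]
  have hmain : (x₃ / y₃ - (x₁ / y₁ + x₂ / y₂)) *
      (β * y₁ * y₂ + (M * β - 2 * C * ℓ) * x₁ * x₂) =
      -(x₁ / y₁ + x₂ / y₂) * ((M * β - 2 * C * ℓ) * x₁ * x₂) := by
    have hid := fg_identity hch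
    field_simp
    linear_combination y₁ * y₂ * hid
  have hTE : v (β * y₁ * y₂ + (M * β - 2 * C * ℓ) * x₁ * x₂) = v (β * y₁ * y₂) :=
    Valuation.map_add_eq_of_lt_left v hET
  have hval : v (x₃ / y₃ - (x₁ / y₁ + x₂ / y₂)) * v (β * y₁ * y₂) =
      v (x₁ / y₁ + x₂ / y₂) * v ((M * β - 2 * C * ℓ) * x₁ * x₂) := by
    have := congrArg v hmain
    rw [map_mul, hTE] at this
    rw [this, map_mul, Valuation.map_neg]
  have hT0 : 0 < v (β * y₁ * y₂) := by
    rw [zero_lt_iff, Valuation.ne_zero_iff]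
    exact mul_ne_zero (mul_ne_zero hβ0 hy₁0) hy₂0
  have hsum0 : 0 < v (x₁ / y₁ + x₂ / y₂) := by
    rw [zero_lt_iff, Valuation.ne_zero_iff]; exact hsum
  apply lt_of_mul_lt_mul_right (a := v (β * y₁ * y₂)) _ zero_le
  rw [hval]
  gcongr

/-- The invariant: `Q` lies in the formal group and has parameter `≡ c z₀`. -/
def fg_R (W : Affine K) (z₀ c : K) : W.Point → Prop
  | .zero => v c < 1
  | .some x y _ => 1 < v x ∧ v (x / y - c * z₀) < v z₀

theorem fg_invariant [DecidableEq K] (W : Affine K) (h₁ : W.a₁ = 0) (h₃ : W.a₃ = 0)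
    (h₆ : W.a₆ = 0) (hM : v W.a₂ ≤ 1) (hC : v W.a₄ ≤ 1) (x y : K) (h : W.Nonsingular x y)
    (hx : 1 < v x) (k : ℕ) :
    v (k : K) ≤ 1 ∧ fg_R v W (x / y) (k : K) (k • Point.some x y h) := by
  have hE := special_equation W h₁ h₃ h₆ h.1
  obtain ⟨hx0, hy0, -⟩ := fg_point v hM hC hE hx
  have hz0 : 0 < v (x / y) := by
    rw [zero_lt_iff, Valuation.ne_zero_iff]; exact div_ne_zero hx0 hy0
  induction k with
  | zero =>
    refine ⟨by simp, ?_⟩
    rw [zero_nsmul]
    show v ((0 : ℕ) : K) < 1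
    simp
  | succ k ih =>
    obtain ⟨ihk, ihR⟩ := ih
    have hk1 : v ((k + 1 : ℕ) : K) ≤ 1 := by
      rw [Nat.cast_succ]
      exact Valuation.map_add_le v ihk (by simp)
    refine ⟨hk1, ?_⟩
    rw [succ_nsmul]
    rcases hQ : k • Point.some x y h with _ | ⟨x₁, y₁, hP₁⟩
    · rw [hQ] at ihR
      have ihR' : v (k : K) < 1 := ihR
      show fg_R v W (x / y) ((k + 1 : ℕ) : K) (0 + Point.some x y h)
      rw [zero_add]
      refine ⟨hx, ?_⟩
      have : x / y - ((k + 1 : ℕ) : K) * (x / y) = -((k : K) * (x / y)) := by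
        push_cast; ring
      rw [this, Valuation.map_neg, map_mul]
      calc v (k : K) * v (x / y) < 1 * v (x / y) := by gcongr
        _ = v (x / y) := one_mul _
    · rw [hQ] at ihR
      obtain ⟨hx₁, hz₁⟩ : 1 < v x₁ ∧ v (x₁ / y₁ - (k : K) * (x / y)) < v (x / y) := ihR
      by_cases hinv : x₁ = x ∧ y₁ = -y
      · have hsum : Point.some x₁ y₁ hP₁ + Point.some x y h = 0 :=
          Point.add_of_Y_eq hinv.1 (by rw [special_negY W h₁ h₃]; exact hinv.2)
        rw [hsum]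
        show v ((k + 1 : ℕ) : K) < 1
        by_contra hc
        have hc := not_lt.mp hc
        have : x₁ / y₁ - (k : K) * (x / y) = -(((k + 1 : ℕ) : K) * (x / y)) := by
          rw [hinv.1, hinv.2]; push_cast; field_simp; ring
        rw [this, Valuation.map_neg, map_mul] at hz₁
        have : v (x / y) ≤ v ((k + 1 : ℕ) : K) * v (x / y) :=
          calc v (x / y) = 1 * v (x / y) := (one_mul _).symm
            _ ≤ v ((k + 1 : ℕ) : K) * v (x / y) := by gcongr
        exact absurd hz₁ (not_lt.mpr this)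
      · obtain ⟨x₃, y₃, ℓ, β, hP₃, hsum, hch, -⟩ := exists_chord W h₁ h₃ h₆ hP₁ h hinv
        rw [hsum]
        have hE₁ := special_equation W h₁ h₃ h₆ hP₁.1
        have hE₃ := special_equation W h₁ h₃ h₆ hP₃.1
        obtain ⟨hx₃, hz₃⟩ := fg_core v hM hC hch hE₁ hE hE₃ hx₁ hx
        refine ⟨hx₃, ?_⟩
        have hle : v (x₁ / y₁ + x / y) ≤ v (x / y) := by
          have : x₁ / y₁ + x / y = (x₁ / y₁ - (k : K) * (x / y)) + ((k + 1 : ℕ) : K) * (x / y) := by
            push_cast; ring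
          rw [this]
          apply Valuation.map_add_le v hz₁.le
          rw [map_mul]
          calc v ((k + 1 : ℕ) : K) * v (x / y) ≤ 1 * v (x / y) := by gcongr
            _ = v (x / y) := one_mul _
        have : x₃ / y₃ - ((k + 1 : ℕ) : K) * (x / y) =
            (x₃ / y₃ - (x₁ / y₁ + x / y)) + (x₁ / y₁ - (k : K) * (x / y)) := by
          push_cast; ring
        rw [this]
        exact Valuation.map_add_lt v (lt_of_lt_of_le hz₃ hle) hz₁

end fg

/-- **Integrality of torsion points.** On the curve `y^2 = x^3 + M x^2 + C x` with `v`-integral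
`M`, `C`, a point `(x, y)` killed by an integer `n` which is a `v`-unit has `v`-integral `x`. -/
theorem torsion_integral {K : Type*} [Field K] [DecidableEq K] {Γ₀ : Type*}
    [LinearOrderedCommGroupWithZero Γ₀]
    (v : Valuation K Γ₀) (W : WeierstrassCurve.Affine K) (h₁ : W.a₁ = 0) (h₃ : W.a₃ = 0)
    (h₆ : W.a₆ = 0)
    (hM : v W.a₂ ≤ 1) (hC : v W.a₄ ≤ 1) (n : ℕ) (hn : v (n : K) = 1) (x y : K)
    (h : W.Nonsingular x y)
    (hT : n • (WeierstrassCurve.Affine.Point.some x y h) = 0) : v x ≤ 1 := by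
  by_contra hx
  have hx := not_le.mp hx
  have hR := (fg_invariant v W h₁ h₃ h₆ hM hC x y h hx n).2
  rw [hT] at hR
  have hR' : v (n : K) < 1 := hR
  rw [hn] at hR'
  exact lt_irrefl _ hR'

end Fermat.Agent.S05
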