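import Mathlib
import Fermat.Prelude.Def_FLTPrelim_Ramification

/-!
Plumbing for S05: elements of the inertia subgroup move elements of the valuation ring
by nonunits; valuations of integers in a valuation subring lying over a prime.
-/

set_option autoImplicit false

namespace Fermat.Agent.S05

open scoped Pointwise

/-- An element of the inertia subgroup of a valuation subring `A` of the algebraic closure
moves every element of `A` by a nonunit. -/
theorem inertia_sub_mem_nonunits (A : ValuationSubring (AlgebraicClosure ℚ))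
    (σ : AlgebraicClosure ℚ ≃ₐ[ℚ] AlgebraicClosure ℚ) (hσ : σ ∈ A.inertiaSubgroupIn ℚ)
    (a : AlgebraicClosure ℚ) (ha : a ∈ A) : σ a - a ∈ A.nonunits := by
  obtain ⟨τ, hτ, rfl⟩ := hσ
  have h1 : MulSemiringAction.toRingAut (A.decompositionSubgroup ℚ)
      (IsLocalRing.ResidueField A) τ = 1 := hτ
  have h2 : τ • IsLocalRing.residue A ⟨a, ha⟩ = IsLocalRing.residue A ⟨a, ha⟩ := by
    have := congrArg (fun f : RingAut (IsLocalRing.ResidueField A) =>
      f (IsLocalRing.residue A ⟨a, ha⟩)) h1
    simpa using this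
  rw [← IsLocalRing.ResidueField.residue_smul] at h2
  have h3 : IsLocalRing.residue A (τ • (⟨a, ha⟩ : A) - ⟨a, ha⟩) = 0 := by
    rw [map_sub, h2, sub_self]
  rw [IsLocalRing.residue_eq_zero_iff] at h3
  have h4 : ((τ • (⟨a, ha⟩ : A) - ⟨a, ha⟩ : A) : AlgebraicClosure ℚ) ∈ A.nonunits := by
    rw [ValuationSubring.mem_nonunits_iff_exists_mem_maximalIdeal]
    exact ⟨(τ • (⟨a, ha⟩ : A) - ⟨a, ha⟩ : A).2, h3⟩
  exact h4

/-- In a valuation subring lying over the prime `q`, integers prime to `q` have valuation one. -/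
theorem valuation_intCast_eq_one {K : Type*} [Field K] (A : ValuationSubring K) {q : ℕ}
    (hq : q.Prime) (hqA : (q : K) ∈ A.nonunits) {n : ℤ} (hn : ¬ (q : ℤ) ∣ n) :
    A.valuation (n : K) = 1 := by
  have hle : A.valuation (n : K) ≤ 1 := (A.valuation_le_one_iff _).mpr (intCast_mem A n)
  refine le_antisymm hle (not_lt.mp fun hlt => ?_)
  have hcop : IsCoprime (q : ℤ) n := by
    rw [Int.isCoprime_iff_gcd_eq_one]
    exact (Nat.Prime.coprime_iff_not_dvd hq).mpr (fun h => hn (Int.natCast_dvd.mpr h))
  obtain ⟨u, w, huw⟩ := hcop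
  have h1 : ((u : K) * (q : K) + (w : K) * (n : K)) = 1 := by
    have := congrArg (Int.cast : ℤ → K) huw
    push_cast at this
    exact this
  rw [ValuationSubring.mem_nonunits_iff] at hqA
  have h2 : A.valuation ((u : K) * (q : K) + (w : K) * (n : K)) < 1 := by
    apply Valuation.map_add_lt
    · rw [map_mul]
      calc A.valuation (u : K) * A.valuation (q : K) ≤ 1 * A.valuation (q : K) :=
            mul_le_mul' ((A.valuation_le_one_iff _).mpr (intCast_mem A u)) le_rfl
        _ < 1 := by rw [one_mul]; exact hqA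
    · rw [map_mul]
      calc A.valuation (w : K) * A.valuation (n : K) ≤ 1 * A.valuation (n : K) :=
            mul_le_mul' ((A.valuation_le_one_iff _).mpr (intCast_mem A w)) le_rfl
        _ < 1 := by rw [one_mul]; exact hlt
  rw [h1, map_one] at h2
  exact lt_irrefl _ h2

/-- In a valuation subring lying over `q`, multiples of `q` have valuation less than one. -/
theorem valuation_intCast_lt_one {K : Type*} [Field K] (A : ValuationSubring K) {q : ℕ}
    (hqA : (q : K) ∈ A.nonunits) {n : ℤ} (hn : (q : ℤ) ∣ n) : A.valuation (n : K) < 1 := by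
  obtain ⟨m, rfl⟩ := hn
  rw [ValuationSubring.mem_nonunits_iff] at hqA
  push_cast
  rw [map_mul]
  calc A.valuation (q : K) * A.valuation (m : K) ≤ A.valuation (q : K) * 1 :=
        mul_le_mul' le_rfl ((A.valuation_le_one_iff _).mpr (intCast_mem A m))
    _ < 1 := by rw [mul_one]; exact hqA

end Fermat.Agent.S05
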