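import Mathlib

/-!
Variable change `(x, y) ↦ (x - e, y + x / 2)` from a Weierstrass model
`y² + x y = x³ + a₂ x² + a₄ x` to a model `y² = x³ + M x² + C x`, as an injective additive
homomorphism on Mathlib's groups of nonsingular points.
-/

set_option autoImplicit false

namespace Fermat.Agent.S05

open WeierstrassCurve WeierstrassCurve.Affine

section VarChange

variable {F : Type*} [Field F]

theorem vc_some_congr {W : Affine F} {x y x' y' : F} (h : W.Nonsingular x y)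
    (h' : W.Nonsingular x' y') (hx : x = x') (hy : y = y') :
    Point.some x y h = Point.some x' y' h' := by
  subst hx hy
  rfl

theorem vc_half (h2 : (2 : F) ≠ 0) :
    ∃ c : F, 2 * c = 1 ∧ (1 : F) / 4 = c * c ∧ ∀ t : F, t / 2 = t * c := by
  refine ⟨1 / 2, by field_simp, ?_, fun t => by ring⟩
  have h4 : (4 : F) ≠ 0 := by
    have : (4 : F) = 2 * 2 := by norm_num
    rw [this]; exact mul_ne_zero h2 h2
  field_simp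
  norm_num

theorem vc_equation (W W' : Affine F) (e : F) (h2 : (2 : F) ≠ 0)
    (ha₁ : W.a₁ = 1) (ha₃ : W.a₃ = 0) (ha₆ : W.a₆ = 0)
    (ha₁' : W'.a₁ = 0) (ha₃' : W'.a₃ = 0) (ha₆' : W'.a₆ = 0)
    (hM : W'.a₂ = W.a₂ + 1 / 4 + 3 * e)
    (hC : W'.a₄ = 3 * e ^ 2 + 2 * (W.a₂ + 1 / 4) * e + W.a₄)
    (he : e ^ 3 + (W.a₂ + 1 / 4) * e ^ 2 + W.a₄ * e = 0)
    {x y : F} (h : W.Equation x y) : W'.Equation (x - e) (y + x / 2) := by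
  rw [Affine.equation_iff] at h ⊢
  rw [ha₁, ha₃, ha₆] at h
  rw [ha₁', ha₃', ha₆', hM, hC]
  obtain ⟨c, hc, h14, hdiv⟩ := vc_half h2
  rw [h14] at he ⊢
  rw [hdiv]
  linear_combination h + he + x * y * hc

theorem vc_nonsingular (W W' : Affine F) (e : F) (h2 : (2 : F) ≠ 0)
    (ha₁ : W.a₁ = 1) (ha₃ : W.a₃ = 0) (ha₆ : W.a₆ = 0)
    (ha₁' : W'.a₁ = 0) (ha₃' : W'.a₃ = 0) (ha₆' : W'.a₆ = 0)
    (hM : W'.a₂ = W.a₂ + 1 / 4 + 3 * e)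
    (hC : W'.a₄ = 3 * e ^ 2 + 2 * (W.a₂ + 1 / 4) * e + W.a₄)
    (he : e ^ 3 + (W.a₂ + 1 / 4) * e ^ 2 + W.a₄ * e = 0) (hΔ' : W'.Δ ≠ 0)
    {x y : F} (h : W.Nonsingular x y) : W'.Nonsingular (x - e) (y + x / 2) :=
  (Affine.equation_iff_nonsingular_of_Δ_ne_zero hΔ').mp
    (vc_equation W W' e h2 ha₁ ha₃ ha₆ ha₁' ha₃' ha₆' hM hC he h.1)

/-- The underlying function of the variable change on points. -/
noncomputable def vcFun (W W' : Affine F) (e : F) (h2 : (2 : F) ≠ 0)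
    (ha₁ : W.a₁ = 1) (ha₃ : W.a₃ = 0) (ha₆ : W.a₆ = 0)
    (ha₁' : W'.a₁ = 0) (ha₃' : W'.a₃ = 0) (ha₆' : W'.a₆ = 0)
    (hM : W'.a₂ = W.a₂ + 1 / 4 + 3 * e)
    (hC : W'.a₄ = 3 * e ^ 2 + 2 * (W.a₂ + 1 / 4) * e + W.a₄)
    (he : e ^ 3 + (W.a₂ + 1 / 4) * e ^ 2 + W.a₄ * e = 0) (hΔ' : W'.Δ ≠ 0) :
    W.Point → W'.Point
  | 0 => 0
  | .some x y h => .some (x - e) (y + x / 2)
      (vc_nonsingular W W' e h2 ha₁ ha₃ ha₆ ha₁' ha₃' ha₆' hM hC he hΔ' h)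

theorem vc_negY_iff (W W' : Affine F) (e : F) (h2 : (2 : F) ≠ 0)
    (ha₁ : W.a₁ = 1) (ha₃ : W.a₃ = 0) (ha₁' : W'.a₁ = 0) (ha₃' : W'.a₃ = 0)
    (x₁ y₁ x₂ y₂ : F) :
    (x₁ - e = x₂ - e ∧ y₁ + x₁ / 2 = W'.negY (x₂ - e) (y₂ + x₂ / 2)) ↔
      (x₁ = x₂ ∧ y₁ = W.negY x₂ y₂) := by
  obtain ⟨c, hc, -, hdiv⟩ := vc_half h2
  simp only [Affine.negY, ha₁, ha₃, ha₁', ha₃', hdiv]
  constructor
  · rintro ⟨h1, h2'⟩
    have hx : x₁ = x₂ := by linear_combination h1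
    subst hx
    exact ⟨rfl, by linear_combination h2' - x₁ * hc⟩
  · rintro ⟨rfl, h2'⟩
    exact ⟨rfl, by linear_combination h2' + x₁ * hc⟩

variable [DecidableEq F]

theorem vc_slope (W W' : Affine F) (e : F) (h2 : (2 : F) ≠ 0)
    (ha₁ : W.a₁ = 1) (ha₃ : W.a₃ = 0)
    (ha₁' : W'.a₁ = 0) (ha₃' : W'.a₃ = 0)
    (hM : W'.a₂ = W.a₂ + 1 / 4 + 3 * e)
    (hC : W'.a₄ = 3 * e ^ 2 + 2 * (W.a₂ + 1 / 4) * e + W.a₄)
    {x₁ y₁ x₂ y₂ : F} (h₁ : W.Equation x₁ y₁) (h₂ : W.Equation x₂ y₂)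
    (hxy : ¬(x₁ = x₂ ∧ y₁ = W.negY x₂ y₂)) :
    W'.slope (x₁ - e) (x₂ - e) (y₁ + x₁ / 2) (y₂ + x₂ / 2) = W.slope x₁ x₂ y₁ y₂ + 1 / 2 := by
  have hxy' : ¬(x₁ - e = x₂ - e ∧ y₁ + x₁ / 2 = W'.negY (x₂ - e) (y₂ + x₂ / 2)) := by
    rw [vc_negY_iff W W' e h2 ha₁ ha₃ ha₁' ha₃']; exact hxy
  obtain ⟨c, hc, h14, hdiv⟩ := vc_half h2
  by_cases hx : x₁ = x₂
  · subst hx
    have hy : y₁ ≠ W.negY x₁ y₂ := fun h => hxy ⟨rfl, h⟩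
    have hy' : y₁ + x₁ / 2 ≠ W'.negY (x₁ - e) (y₂ + x₁ / 2) := fun h => hxy' ⟨rfl, h⟩
    have hyy : y₁ = y₂ := Affine.Y_eq_of_Y_ne h₁ h₂ rfl hy
    subst hyy
    rw [Affine.slope_of_Y_ne rfl hy, Affine.slope_of_Y_ne rfl hy']
    have hD : y₁ - W.negY x₁ y₁ ≠ 0 := sub_ne_zero.mpr hy
    simp only [Affine.negY, ha₁, ha₃, ha₁', ha₃', hM, hC, hdiv, h14] at hD ⊢
    have hDD : y₁ + x₁ * c - (-(y₁ + x₁ * c) - 0 * (x₁ - e) - 0) = y₁ - (-y₁ - 1 * x₁ - 0) := by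
      linear_combination x₁ * hc
    rw [hDD, div_add' _ _ _ hD, div_left_inj' hD]
    linear_combination (c * x₁ - y₁) * hc
  · have hx' : x₁ - e ≠ x₂ - e := fun h => hx (by linear_combination h)
    rw [Affine.slope_of_X_ne hx, Affine.slope_of_X_ne hx']
    have hd : x₁ - x₂ ≠ 0 := sub_ne_zero.mpr hx
    simp only [hdiv]
    rw [show x₁ - e - (x₂ - e) = x₁ - x₂ by ring, one_mul, div_add' _ _ _ hd, div_left_inj' hd]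
    ring

/-- The variable change `(x, y) ↦ (x - e, y + x / 2)` as an injective additive homomorphism. -/
theorem exists_varChange_hom (W W' : Affine F) (e : F) (h2 : (2 : F) ≠ 0)
    (ha₁ : W.a₁ = 1) (ha₃ : W.a₃ = 0) (ha₆ : W.a₆ = 0) (ha₁' : W'.a₁ = 0) (ha₃' : W'.a₃ = 0)
    (ha₆' : W'.a₆ = 0)
    (hM : W'.a₂ = W.a₂ + 1 / 4 + 3 * e) (hC : W'.a₄ = 3 * e ^ 2 + 2 * (W.a₂ + 1 / 4) * e + W.a₄)
    (he : e ^ 3 + (W.a₂ + 1 / 4) * e ^ 2 + W.a₄ * e = 0) (hΔ' : W'.Δ ≠ 0) :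
    ∃ Φ : W.Point →+ W'.Point, (∀ P, Φ P = 0 → P = 0) ∧
      ∀ (x y : F) (h : W.Nonsingular x y), ∃ h' : W'.Nonsingular (x - e) (y + x / 2),
        Φ (Point.some x y h) = Point.some (x - e) (y + x / 2) h' := by
  let f := vcFun W W' e h2 ha₁ ha₃ ha₆ ha₁' ha₃' ha₆' hM hC he hΔ'
  have hns : ∀ {x y : F}, W.Nonsingular x y → W'.Nonsingular (x - e) (y + x / 2) :=
    fun h => vc_nonsingular W W' e h2 ha₁ ha₃ ha₆ ha₁' ha₃' ha₆' hM hC he hΔ' h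
  have hf0 : f 0 = 0 := rfl
  have hfs : ∀ (x y : F) (h : W.Nonsingular x y), f (Point.some x y h) =
      Point.some (x - e) (y + x / 2) (hns h) := fun _ _ _ => rfl
  have hadd : ∀ P Q : W.Point, f (P + Q) = f P + f Q := by
    rintro (_ | ⟨x₁, y₁, h₁⟩) (_ | ⟨x₂, y₂, h₂⟩)
    · rfl
    · rfl
    · rfl
    · by_cases hxy : x₁ = x₂ ∧ y₁ = W.negY x₂ y₂
      · have hxy' := (vc_negY_iff W W' e h2 ha₁ ha₃ ha₁' ha₃' x₁ y₁ x₂ y₂).mpr hxy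
        rw [Point.add_of_Y_eq hxy.1 hxy.2, hfs, hfs, Point.add_of_Y_eq hxy'.1 hxy'.2]
        rfl
      · have hxy' : ¬(x₁ - e = x₂ - e ∧ y₁ + x₁ / 2 = W'.negY (x₂ - e) (y₂ + x₂ / 2)) := by
          rw [vc_negY_iff W W' e h2 ha₁ ha₃ ha₁' ha₃']; exact hxy
        rw [Point.add_some hxy, hfs, hfs, hfs, Point.add_some hxy']
        have hsl := vc_slope W W' e h2 ha₁ ha₃ ha₁' ha₃' hM hC h₁.1 h₂.1 hxy
        obtain ⟨c, hc, h14, hdiv⟩ := vc_half h2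
        apply vc_some_congr
        · rw [hsl]
          simp only [Affine.addX, ha₁, ha₁', hM, h14, hdiv, one_mul]
          linear_combination (-W.slope x₁ x₂ y₁ y₂) * hc
        · rw [hsl]
          simp only [Affine.addY, Affine.negAddY, Affine.addX, Affine.negY, ha₁, ha₃, ha₁', ha₃',
            hM, h14, hdiv, one_mul]
          linear_combination (2 * W.slope x₁ x₂ y₁ y₂ ^ 2 + W.slope x₁ x₂ y₁ y₂
            + W.slope x₁ x₂ y₁ y₂ * c - W.a₂ - x₁ - x₂) * hc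
  refine ⟨⟨⟨f, hf0⟩, hadd⟩, ?_, fun x y h => ⟨hns h, rfl⟩⟩
  rintro (_ | ⟨x, y, h⟩) hP
  · rfl
  · exact absurd hP (Point.some_ne_zero _)

end VarChange

end Fermat.Agent.S05
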