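import Fermat.Agent.S05.Core
import Fermat.Agent.S05.FormalGroup
import Fermat.Agent.S05.Inertia
import Fermat.Agent.S05.VarChange
import Fermat.Prelude.Def_FLTPrelim_Ramification

/-!
# Inertia acts trivially on odd prime torsion of `y² + x y = x³ + a₂ x² + a₄ x` with good or
nodal reduction, given explicit integral data for a model `y² = x³ + M x² + C x`.
-/

set_option autoImplicit false

namespace Fermat.Agent.S05

open WeierstrassCurve WeierstrassCurve.Affine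

/-- Valuations of the rational data entering the model curve. -/
theorem glue_val (A : ValuationSubring (AlgebraicClosure ℚ)) {q p : ℕ} (hq : q.Prime)
    (hq2 : q ≠ 2) (hp : p.Prime) (hqp : q ≠ p)
    (hA : (q : AlgebraicClosure ℚ) ∈ A.nonunits) :
    A.valuation (2 : AlgebraicClosure ℚ) = 1 ∧ A.valuation (4 : AlgebraicClosure ℚ) = 1 ∧
      A.valuation (16 : AlgebraicClosure ℚ) = 1 ∧ A.valuation (p : AlgebraicClosure ℚ) = 1 := by
  have hq2' : ¬ (q : ℤ) ∣ 2 := by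
    intro h
    have h' : q ∣ 2 := by exact_mod_cast h
    exact hq2 ((Nat.prime_dvd_prime_iff_eq hq Nat.prime_two).mp h')
  have hqp' : ¬ (q : ℤ) ∣ (p : ℤ) := by
    intro h
    have h' : q ∣ p := by exact_mod_cast h
    exact hqp ((Nat.prime_dvd_prime_iff_eq hq hp).mp h')
  have hv2 : A.valuation (2 : AlgebraicClosure ℚ) = 1 := by
    have := valuation_intCast_eq_one A hq hA hq2'
    simpa using this
  have hvp : A.valuation (p : AlgebraicClosure ℚ) = 1 := by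
    have := valuation_intCast_eq_one A hq hA hqp'
    simpa using this
  have hv4 : A.valuation (4 : AlgebraicClosure ℚ) = 1 := by
    have : (4 : AlgebraicClosure ℚ) = 2 * 2 := by norm_num
    rw [this, map_mul, hv2, one_mul]
  have hv16 : A.valuation (16 : AlgebraicClosure ℚ) = 1 := by
    have : (16 : AlgebraicClosure ℚ) = 4 * 4 := by norm_num
    rw [this, map_mul, hv4, one_mul]
  exact ⟨hv2, hv4, hv16, hvp⟩

/-- The reduction type of the model curve `y² = x³ + M x² + C x` read off from integral data. -/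
theorem glue_case (A : ValuationSubring (AlgebraicClosure ℚ)) {q p : ℕ} (hq : q.Prime)
    (hp0 : p ≠ 0) (hA : (q : AlgebraicClosure ℚ) ∈ A.nonunits)
    (hv4 : A.valuation (4 : AlgebraicClosure ℚ) = 1)
    (hv16 : A.valuation (16 : AlgebraicClosure ℚ) = 1)
    (m g d ε : ℤ) (hε : ε = 1 ∨ ε = -1) (hg0 : g ≠ 0) (hqd : ¬ (q : ℤ) ∣ d)
    (M C : AlgebraicClosure ℚ) (hM : M = (m : AlgebraicClosure ℚ) / 4)
    (hC : C = (ε : AlgebraicClosure ℚ) * (g : AlgebraicClosure ℚ) ^ p / 16)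
    (hdisc : M ^ 2 - 4 * C = ((d : AlgebraicClosure ℚ) / 4) ^ 2) :
    A.valuation M ≤ 1 ∧ A.valuation C ≤ 1 ∧ C ≠ 0 ∧ M ^ 2 - 4 * C ≠ 0 ∧
    ((A.valuation C = 1 ∧ A.valuation (M ^ 2 - 4 * C) = 1) ∨
     (A.valuation M = 1 ∧ A.valuation C < 1 ∧
        ∃ κ : AlgebraicClosure ℚ, A.valuation κ = 1 ∧ C = κ * (g : AlgebraicClosure ℚ) ^ p)) := by
  have hvd : A.valuation (d : AlgebraicClosure ℚ) = 1 := valuation_intCast_eq_one A hq hA hqd
  have hvε : A.valuation (ε : AlgebraicClosure ℚ) = 1 := by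
    rcases hε with rfl | rfl
    · simp
    · simp
  have hvm : A.valuation (m : AlgebraicClosure ℚ) ≤ 1 :=
    (A.valuation_le_one_iff _).mpr (intCast_mem A m)
  have hvg : A.valuation (g : AlgebraicClosure ℚ) ≤ 1 :=
    (A.valuation_le_one_iff _).mpr (intCast_mem A g)
  have hd0 : (d : AlgebraicClosure ℚ) ≠ 0 := by
    intro h
    rw [h, map_zero] at hvd
    exact zero_ne_one hvd
  have hg0' : (g : AlgebraicClosure ℚ) ≠ 0 := by exact_mod_cast hg0
  have hε0 : (ε : AlgebraicClosure ℚ) ≠ 0 := by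
    intro h
    rw [h, map_zero] at hvε
    exact zero_ne_one hvε
  have h4 : (4 : AlgebraicClosure ℚ) ≠ 0 := by norm_num
  have h16 : (16 : AlgebraicClosure ℚ) ≠ 0 := by norm_num
  have hvM : A.valuation M ≤ 1 := by
    rw [hM, map_div₀, hv4, div_one]; exact hvm
  have hvC : A.valuation C = A.valuation (g : AlgebraicClosure ℚ) ^ p := by
    rw [hC, map_div₀, map_mul, map_pow, hvε, hv16, div_one, one_mul]
  have hvC1 : A.valuation C ≤ 1 := by
    rw [hvC]; exact pow_le_one₀ zero_le hvg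
  have hC0 : C ≠ 0 := by
    rw [hC]
    exact div_ne_zero (mul_ne_zero hε0 (pow_ne_zero _ hg0')) h16
  have hD0 : M ^ 2 - 4 * C ≠ 0 := by
    rw [hdisc]
    exact pow_ne_zero _ (div_ne_zero hd0 h4)
  have hvD : A.valuation (M ^ 2 - 4 * C) = 1 := by
    rw [hdisc, map_pow, map_div₀, hvd, hv4, div_one, one_pow]
  refine ⟨hvM, hvC1, hC0, hD0, ?_⟩
  by_cases hqg : (q : ℤ) ∣ g
  · right
    have hvg' : A.valuation (g : AlgebraicClosure ℚ) < 1 := valuation_intCast_lt_one A hA hqg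
    have hvC' : A.valuation C < 1 := by
      rw [hvC]; exact pow_lt_one₀ zero_le hvg' hp0
    refine ⟨?_, hvC', (ε : AlgebraicClosure ℚ) / 16, ?_, ?_⟩
    · apply v_eq_one_of_sq_eq_one
      have hM2 : M ^ 2 = (M ^ 2 - 4 * C) + 4 * C := by ring
      rw [hM2]
      apply v_add_eq_one_of_eq_of_lt _ hvD
      rw [map_mul, hv4, one_mul]; exact hvC'
    · rw [map_div₀, hvε, hv16, div_one]
    · rw [hC]; ring
  · left
    have hvg' : A.valuation (g : AlgebraicClosure ℚ) = 1 := valuation_intCast_eq_one A hq hA hqg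
    exact ⟨by rw [hvC, hvg', one_pow], hvD⟩

/-- Inertia at `q` fixes the `p`-torsion of `W : y² + x y = x³ + a₂ x² + a₄ x` over `ℚ`, given
integral data for a model `y² = x³ + M x² + C x` obtained by `(x, y) ↦ (x - e, y + x / 2)`. -/
theorem glue_fixed (W : Affine ℚ) (ha₁ : W.a₁ = 1) (ha₃ : W.a₃ = 0) (ha₆ : W.a₆ = 0)
    {q p : ℕ} (hq : q.Prime) (hq2 : q ≠ 2) (hp : p.Prime) (hqp : q ≠ p) (hpodd : Odd p)
    (e : ℚ) (m g d ε : ℤ) (hε : ε = 1 ∨ ε = -1) (hg0 : g ≠ 0) (hqd : ¬ (q : ℤ) ∣ d)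
    (he : e ^ 3 + (W.a₂ + 1 / 4) * e ^ 2 + W.a₄ * e = 0)
    (hM : W.a₂ + 1 / 4 + 3 * e = (m : ℚ) / 4)
    (hC : 3 * e ^ 2 + 2 * (W.a₂ + 1 / 4) * e + W.a₄ = (ε : ℚ) * (g : ℚ) ^ p / 16)
    (hdisc : ((m : ℚ) / 4) ^ 2 - 4 * ((ε : ℚ) * (g : ℚ) ^ p / 16) = ((d : ℚ) / 4) ^ 2)
    (A : ValuationSubring (AlgebraicClosure ℚ)) (hA : (q : AlgebraicClosure ℚ) ∈ A.nonunits)
    (σ : AlgebraicClosure ℚ ≃ₐ[ℚ] AlgebraicClosure ℚ) (hσ : σ ∈ A.inertiaSubgroupIn ℚ)
    (T : (W⁄(AlgebraicClosure ℚ)).Point) (hT : p • T = 0) :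
    Point.map (W' := W) σ.toAlgHom T = T := by
  obtain ⟨hv2, hv4, hv16, hvp⟩ := glue_val A hq hq2 hp hqp hA
  let W₀ : Affine ℚ := ⟨0, (m : ℚ) / 4, 0, (ε : ℚ) * (g : ℚ) ^ p / 16, 0⟩
  have hM₀ : (W₀⁄(AlgebraicClosure ℚ)).a₂ = (m : AlgebraicClosure ℚ) / 4 := by
    show algebraMap ℚ (AlgebraicClosure ℚ) ((m : ℚ) / 4) = _
    simp
  have hC₀ : (W₀⁄(AlgebraicClosure ℚ)).a₄ =
      (ε : AlgebraicClosure ℚ) * (g : AlgebraicClosure ℚ) ^ p / 16 := by
    show algebraMap ℚ (AlgebraicClosure ℚ) ((ε : ℚ) * (g : ℚ) ^ p / 16) = _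
    simp
  have hD₀ : (W₀⁄(AlgebraicClosure ℚ)).a₂ ^ 2 - 4 * (W₀⁄(AlgebraicClosure ℚ)).a₄ =
      ((d : AlgebraicClosure ℚ) / 4) ^ 2 := by
    have := congrArg (algebraMap ℚ (AlgebraicClosure ℚ)) hdisc
    rw [hM₀, hC₀]
    simpa using this
  have h₁ : (W₀⁄(AlgebraicClosure ℚ)).a₁ = 0 := map_zero _
  have h₃ : (W₀⁄(AlgebraicClosure ℚ)).a₃ = 0 := map_zero _
  have h₆ : (W₀⁄(AlgebraicClosure ℚ)).a₆ = 0 := map_zero _
  obtain ⟨hvM, hvC, hC0, hD0, hcase⟩ :=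
    glue_case A hq hp.ne_zero hA hv4 hv16 m g d ε hε hg0 hqd _ _ hM₀ hC₀ hD₀
  have hΔ : (W₀⁄(AlgebraicClosure ℚ)).Δ ≠ 0 := by
    have : (W₀⁄(AlgebraicClosure ℚ)).Δ = 16 * (W₀⁄(AlgebraicClosure ℚ)).a₄ ^ 2 *
        ((W₀⁄(AlgebraicClosure ℚ)).a₂ ^ 2 - 4 * (W₀⁄(AlgebraicClosure ℚ)).a₄) := by
      simp only [WeierstrassCurve.Δ, WeierstrassCurve.b₂, WeierstrassCurve.b₄,
        WeierstrassCurve.b₆, WeierstrassCurve.b₈, h₁, h₃, h₆]
      ring
    rw [this]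
    exact mul_ne_zero (mul_ne_zero (by norm_num) (pow_ne_zero _ hC0)) hD0
  obtain ⟨Φ, hΦinj, hΦ⟩ := exists_varChange_hom (W⁄(AlgebraicClosure ℚ))
      (W₀⁄(AlgebraicClosure ℚ)) (algebraMap ℚ (AlgebraicClosure ℚ) e) two_ne_zero
      (by show algebraMap ℚ (AlgebraicClosure ℚ) W.a₁ = 1; rw [ha₁, map_one])
      (by show algebraMap ℚ (AlgebraicClosure ℚ) W.a₃ = 0; rw [ha₃, map_zero])
      (by show algebraMap ℚ (AlgebraicClosure ℚ) W.a₆ = 0; rw [ha₆, map_zero])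
      h₁ h₃ h₆
      (by
        show algebraMap ℚ (AlgebraicClosure ℚ) ((m : ℚ) / 4) =
          algebraMap ℚ (AlgebraicClosure ℚ) W.a₂ + 1 / 4 +
            3 * algebraMap ℚ (AlgebraicClosure ℚ) e
        rw [← hM]; simp)
      (by
        show algebraMap ℚ (AlgebraicClosure ℚ) ((ε : ℚ) * (g : ℚ) ^ p / 16) =
          3 * algebraMap ℚ (AlgebraicClosure ℚ) e ^ 2 +
            2 * (algebraMap ℚ (AlgebraicClosure ℚ) W.a₂ + 1 / 4) *
              algebraMap ℚ (AlgebraicClosure ℚ) e + algebraMap ℚ (AlgebraicClosure ℚ) W.a₄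
        rw [← hC]; simp)
      (by
        show algebraMap ℚ (AlgebraicClosure ℚ) e ^ 3 +
            (algebraMap ℚ (AlgebraicClosure ℚ) W.a₂ + 1 / 4) *
              algebraMap ℚ (AlgebraicClosure ℚ) e ^ 2 +
            algebraMap ℚ (AlgebraicClosure ℚ) W.a₄ * algebraMap ℚ (AlgebraicClosure ℚ) e = 0
        have := congrArg (algebraMap ℚ (AlgebraicClosure ℚ)) he
        simpa using this)
      hΔ
  have hσint : ∀ a : AlgebraicClosure ℚ, A.valuation a ≤ 1 →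
      A.valuation ((σ.toAlgHom : AlgebraicClosure ℚ →+* AlgebraicClosure ℚ) a - a) < 1 := by
    intro a ha
    have := inertia_sub_mem_nonunits A σ hσ a ((A.valuation_le_one_iff a).mp ha)
    exact (A.mem_nonunits_iff).mp this
  have TI : TorsInt A.valuation (W₀⁄(AlgebraicClosure ℚ)) := fun n hn x y h hT =>
    torsion_integral A.valuation _ h₁ h₃ h₆ hvM hvC n hn x y h hT
  have hfix : ∀ S : (W₀⁄(AlgebraicClosure ℚ)).Point, p • S = 0 →
      Point.map (W' := W₀) σ.toAlgHom S = S := by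
    intro S hS
    refine fixed_of_torsion (v := A.valuation)
      (σ.toAlgHom : AlgebraicClosure ℚ →+* AlgebraicClosure ℚ)
      (Point.map (W' := W₀) σ.toAlgHom) h₁ h₃ h₆ hv2 TI hpodd hvp hσint ?_ ?_ S hS
    · intro x y h
      exact ⟨_, Point.map_some _ h⟩
    · rcases hcase with ⟨h1, h2⟩ | ⟨h1, h2, κ, hκ, hκC⟩
      · left; exact ⟨hvM, h1, h2⟩
      · right
        exact ⟨h1, h2, hC0, (g : AlgebraicClosure ℚ), κ, by simp, hκ, hκC⟩
  have hcomm : ∀ S : (W⁄(AlgebraicClosure ℚ)).Point,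
      Φ (Point.map (W' := W) σ.toAlgHom S) = Point.map (W' := W₀) σ.toAlgHom (Φ S) := by
    intro S
    rcases point_cases S with rfl | ⟨x, y, h, rfl⟩
    · rw [map_zero, map_zero, map_zero]
    · obtain ⟨h', hh'⟩ := hΦ x y h
      rw [Point.map_some, hh', Point.map_some]
      obtain ⟨h'', hh''⟩ := hΦ _ _
        ((W.baseChange_nonsingular σ.toAlgHom.injective x y).mpr h)
      rw [hh'']
      have hσ2 : σ (2 : AlgebraicClosure ℚ) = 2 := map_ofNat σ 2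
      apply some_congr
      · simp
      · simp [hσ2]
  have hzero : Φ (Point.map (W' := W) σ.toAlgHom T - T) = 0 := by
    rw [map_sub, hcomm, hfix _ (by rw [← map_nsmul, hT, map_zero]), sub_self]
  exact sub_eq_zero.mp (hΦinj _ hzero)

end Fermat.Agent.S05
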