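import Mathlib.AlgebraicGeometry.EllipticCurve.Affine.Point

/-!
# Chord relations for the curve `y^2 = x^3 + M x^2 + C x`

For a Weierstrass curve with `a₁ = a₃ = a₆ = 0` the sum of two affine points that are not
inverse to each other is described by a line `y = ℓ x + β` through `(x₁, y₁)`, `(x₂, y₂)`,
`(x₃, -y₃)` together with the Vieta relations for the three roots `x₁, x₂, x₃`.
-/

set_option autoImplicit false

namespace Fermat.Agent.S05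

open WeierstrassCurve WeierstrassCurve.Affine

variable {K : Type*} [Field K]

/-- The chord relations for the curve `y^2 = x^3 + M x^2 + C x`: the three points
`(x₁, y₁)`, `(x₂, y₂)`, `(x₃, -y₃)` lie on the line `y = ℓ x + β` and `x₁, x₂, x₃` are the
three roots (with multiplicity) of the cubic cut out by that line. -/
def Chord (M C x₁ y₁ x₂ y₂ x₃ y₃ ℓ β : K) : Prop :=
  y₁ = ℓ * x₁ + β ∧ y₂ = ℓ * x₂ + β ∧ -y₃ = ℓ * x₃ + β ∧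
    x₁ + x₂ + x₃ = ℓ ^ 2 - M ∧ x₁ * x₂ + x₁ * x₃ + x₂ * x₃ = C - 2 * ℓ * β ∧
    x₁ * x₂ * x₃ = β ^ 2

/-- The equation of a special curve. -/
theorem special_equation (W : Affine K) (h₁ : W.a₁ = 0) (h₃ : W.a₃ = 0) (h₆ : W.a₆ = 0)
    {x y : K} (h : W.Equation x y) : y ^ 2 = x ^ 3 + W.a₂ * x ^ 2 + W.a₄ * x := by
  have := (equation_iff x y).mp h
  rw [h₁, h₃, h₆] at this
  linear_combination this

/-- Conversely. -/
theorem special_equation_iff (W : Affine K) (h₁ : W.a₁ = 0) (h₃ : W.a₃ = 0) (h₆ : W.a₆ = 0)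
    {x y : K} : W.Equation x y ↔ y ^ 2 = x ^ 3 + W.a₂ * x ^ 2 + W.a₄ * x := by
  rw [equation_iff, h₁, h₃, h₆]
  constructor <;> intro h <;> linear_combination h

/-- Negation on a special curve. -/
theorem special_negY (W : Affine K) (h₁ : W.a₁ = 0) (h₃ : W.a₃ = 0) (x y : K) :
    W.negY x y = -y := by
  simp [negY, h₁, h₃]

/-- The chord relations hold for the sum of two points of a special curve which are not inverse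
to each other; moreover the slope is the chord slope or the tangent slope. -/
theorem exists_chord [DecidableEq K] (W : Affine K) (h₁ : W.a₁ = 0) (h₃ : W.a₃ = 0)
    (h₆ : W.a₆ = 0) {x₁ y₁ x₂ y₂ : K} (hP₁ : W.Nonsingular x₁ y₁) (hP₂ : W.Nonsingular x₂ y₂)
    (hxy : ¬(x₁ = x₂ ∧ y₁ = -y₂)) :
    ∃ (x₃ y₃ ℓ β : K) (hP₃ : W.Nonsingular x₃ y₃),
      Point.some x₁ y₁ hP₁ + Point.some x₂ y₂ hP₂ = Point.some x₃ y₃ hP₃ ∧
      Chord W.a₂ W.a₄ x₁ y₁ x₂ y₂ x₃ y₃ ℓ β ∧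
      ((x₁ ≠ x₂ ∧ ℓ * (x₁ - x₂) = y₁ - y₂) ∨
        (x₁ = x₂ ∧ y₁ = y₂ ∧ y₁ ≠ 0 ∧ 2 * y₁ * ℓ = 3 * x₁ ^ 2 + 2 * W.a₂ * x₁ + W.a₄)) := by
  have hxy' : ¬(x₁ = x₂ ∧ y₁ = W.negY x₂ y₂) := by
    rw [special_negY W h₁ h₃]; exact hxy
  have hE₁ := special_equation W h₁ h₃ h₆ hP₁.1
  have hE₂ := special_equation W h₁ h₃ h₆ hP₂.1
  set ℓ := W.slope x₁ x₂ y₁ y₂ with hℓ
  refine ⟨W.addX x₁ x₂ ℓ, W.addY x₁ x₂ y₁ ℓ, ℓ, y₁ - ℓ * x₁, nonsingular_add hP₁ hP₂ hxy',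
    Point.add_some hxy', ?_, ?_⟩
  · -- chord relations
    have e1 : x₁ + x₂ + W.addX x₁ x₂ ℓ = ℓ ^ 2 - W.a₂ := by
      simp only [addX, h₁]; ring
    have l3 : -(W.addY x₁ x₂ y₁ ℓ) = ℓ * W.addX x₁ x₂ ℓ + (y₁ - ℓ * x₁) := by
      simp only [addY, negAddY, negY, h₁, h₃]; ring
    by_cases hx : x₁ = x₂
    · subst hx
      have hy : y₁ ≠ W.negY x₁ y₂ := fun h => hxy' ⟨rfl, h⟩
      have hyy : y₁ = y₂ := Y_eq_of_Y_ne hP₁.1 hP₂.1 rfl hy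
      subst hyy
      have hy0 : y₁ + y₁ ≠ 0 := by
        rw [special_negY W h₁ h₃] at hy
        intro h0; exact hy (by linear_combination h0)
      have hsl : ℓ = (3 * x₁ ^ 2 + 2 * W.a₂ * x₁ + W.a₄) / (y₁ + y₁) := by
        rw [hℓ, slope_of_Y_ne rfl hy, special_negY W h₁ h₃, h₁]; congr 1 <;> ring
      have hl : 2 * y₁ * ℓ = 3 * x₁ ^ 2 + 2 * W.a₂ * x₁ + W.a₄ := by
        have : ℓ * (y₁ + y₁) = 3 * x₁ ^ 2 + 2 * W.a₂ * x₁ + W.a₄ := by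
          rw [hsl, div_mul_cancel₀ _ hy0]
        linear_combination this
      set x₃ := W.addX x₁ x₁ ℓ
      have c1 : x₁ * x₁ + x₁ * x₃ + x₁ * x₃ = W.a₄ - 2 * ℓ * (y₁ - ℓ * x₁) := by
        linear_combination hl + 2 * x₁ * e1
      have c0 : x₁ * x₁ * x₃ = (y₁ - ℓ * x₁) ^ 2 := by
        linear_combination (-1 : K) * hE₁ + x₁ * c1 - x₁ ^ 2 * e1
      exact ⟨by ring, by ring, l3, e1, c1, c0⟩
    · have hx' : x₁ - x₂ ≠ 0 := sub_ne_zero.mpr hx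
      have hsl : ℓ = (y₁ - y₂) / (x₁ - x₂) := by rw [hℓ, slope_of_X_ne hx]
      have hl : ℓ * (x₁ - x₂) = y₁ - y₂ := by rw [hsl]; field_simp
      set x₃ := W.addX x₁ x₂ ℓ
      have l2 : y₂ = ℓ * x₂ + (y₁ - ℓ * x₁) := by linear_combination hl
      -- the linear polynomial `c₁ x + c₀` vanishes at `x₁` and `x₂`
      have k1 : (W.a₄ - 2 * ℓ * (y₁ - ℓ * x₁) - (x₁ * x₂ + x₁ * x₃ + x₂ * x₃)) * x₁ +
          (x₁ * x₂ * x₃ - (y₁ - ℓ * x₁) ^ 2) = 0 := by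
        linear_combination (-1 : K) * hE₁ - x₁ ^ 2 * e1
      have k2 : (W.a₄ - 2 * ℓ * (y₁ - ℓ * x₁) - (x₁ * x₂ + x₁ * x₃ + x₂ * x₃)) * x₂ +
          (x₁ * x₂ * x₃ - (y₁ - ℓ * x₁) ^ 2) = 0 := by
        linear_combination (-1 : K) * hE₂ + (y₂ + ℓ * x₂ + (y₁ - ℓ * x₁)) * l2 - x₂ ^ 2 * e1
      have c1 : W.a₄ - 2 * ℓ * (y₁ - ℓ * x₁) - (x₁ * x₂ + x₁ * x₃ + x₂ * x₃) = 0 := by
        have : (W.a₄ - 2 * ℓ * (y₁ - ℓ * x₁) - (x₁ * x₂ + x₁ * x₃ + x₂ * x₃)) * (x₁ - x₂) = 0 := by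
          linear_combination k1 - k2
        exact (mul_eq_zero.mp this).resolve_right hx'
      have c0 : x₁ * x₂ * x₃ - (y₁ - ℓ * x₁) ^ 2 = 0 := by
        rw [c1] at k1; linear_combination k1
      exact ⟨by ring, l2, l3, e1, by linear_combination (-1 : K) * c1, by linear_combination c0⟩
  · by_cases hx : x₁ = x₂
    · right
      subst hx
      have hy : y₁ ≠ W.negY x₁ y₂ := fun h => hxy' ⟨rfl, h⟩
      have hyy : y₁ = y₂ := Y_eq_of_Y_ne hP₁.1 hP₂.1 rfl hy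
      subst hyy
      have hy0 : y₁ + y₁ ≠ 0 := by
        rw [special_negY W h₁ h₃] at hy
        intro h0; exact hy (by linear_combination h0)
      have hy0' : y₁ ≠ 0 := by
        rintro rfl; simp at hy0
      have hsl : ℓ = (3 * x₁ ^ 2 + 2 * W.a₂ * x₁ + W.a₄) / (y₁ + y₁) := by
        rw [hℓ, slope_of_Y_ne rfl hy, special_negY W h₁ h₃, h₁]; congr 1 <;> ring
      refine ⟨rfl, rfl, hy0', ?_⟩
      have : ℓ * (y₁ + y₁) = 3 * x₁ ^ 2 + 2 * W.a₂ * x₁ + W.a₄ := by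
        rw [hsl, div_mul_cancel₀ _ hy0]
      linear_combination this
    · left
      have hx' : x₁ - x₂ ≠ 0 := sub_ne_zero.mpr hx
      refine ⟨hx, ?_⟩
      rw [hℓ, slope_of_X_ne hx]; field_simp

section consequences

variable {M C x₁ y₁ x₂ y₂ x₃ y₃ ℓ β : K}

theorem Chord.l1 (h : Chord M C x₁ y₁ x₂ y₂ x₃ y₃ ℓ β) : y₁ = ℓ * x₁ + β := h.1
theorem Chord.l2 (h : Chord M C x₁ y₁ x₂ y₂ x₃ y₃ ℓ β) : y₂ = ℓ * x₂ + β := h.2.1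
theorem Chord.l3 (h : Chord M C x₁ y₁ x₂ y₂ x₃ y₃ ℓ β) : -y₃ = ℓ * x₃ + β := h.2.2.1
theorem Chord.e1 (h : Chord M C x₁ y₁ x₂ y₂ x₃ y₃ ℓ β) : x₁ + x₂ + x₃ = ℓ ^ 2 - M := h.2.2.2.1
theorem Chord.e2 (h : Chord M C x₁ y₁ x₂ y₂ x₃ y₃ ℓ β) :
    x₁ * x₂ + x₁ * x₃ + x₂ * x₃ = C - 2 * ℓ * β := h.2.2.2.2.1
theorem Chord.e3 (h : Chord M C x₁ y₁ x₂ y₂ x₃ y₃ ℓ β) : x₁ * x₂ * x₃ = β ^ 2 := h.2.2.2.2.2

/-- `β (x₁ - x₂) = x₁ y₂ - x₂ y₁`. -/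
theorem Chord.beta_mul_sub (h : Chord M C x₁ y₁ x₂ y₂ x₃ y₃ ℓ β) :
    β * (x₁ - x₂) = x₁ * y₂ - x₂ * y₁ := by
  linear_combination x₂ * h.l1 - x₁ * h.l2

/-- `β (x₂ y₁ + x₁ y₂) = x₁ x₂ (C - x₁ x₂)`. -/
theorem Chord.beta_mul_add (h : Chord M C x₁ y₁ x₂ y₂ x₃ y₃ ℓ β) :
    β * (x₂ * y₁ + x₁ * y₂) = x₁ * x₂ * (C - x₁ * x₂) := by
  linear_combination β * x₂ * h.l1 + β * x₁ * h.l2 + x₁ * x₂ * h.e2 - (x₁ + x₂) * h.e3

/-- `y₃ x₁ β = x₃ (-(y₁ - β) β - x₁² x₂)`, the polynomial form of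
`y₃ / x₃ = -y₁ / x₁ + β / x₁ - x₁ x₂ / β`. -/
theorem Chord.y3_formula (h : Chord M C x₁ y₁ x₂ y₂ x₃ y₃ ℓ β) :
    y₃ * x₁ * β = x₃ * (-(y₁ - β) * β) - x₁ * β ^ 2 := by
  linear_combination (-x₁ * β) * h.l3 + x₃ * β * h.l1

end consequences

end Fermat.Agent.S05
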