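import Fermat.Agent.S05.Node

/-!
# Component bookkeeping for torsion points in the nodal case
-/

set_option autoImplicit false

namespace Fermat.Agent.S05

open WeierstrassCurve WeierstrassCurve.Affine

variable {K : Type*} [Field K] [DecidableEq K] {Γ₀ : Type*} [LinearOrderedCommGroupWithZero Γ₀]
  (v : Valuation K Γ₀) (W : Affine K)

/-- The class of a point relative to a "depth" `γ` and a reference direction `ρ`. -/
def InClass (ρ : K) (P : W.Point) (γ : Γ₀) : Prop :=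
  (γ = 1 ∧ (P = 0 ∨ ∃ (x y : K) (h : W.Nonsingular x y), P = Point.some x y h ∧ v x = 1)) ∨
  (v W.a₄ < γ ∧ γ < 1 ∧ ∃ (x y : K) (h : W.Nonsingular x y),
      P = Point.some x y h ∧ v x = γ ∧ v (y / x - ρ) < 1) ∨
  (1 < γ ∧ v W.a₄ < γ⁻¹ ∧ ∃ (x y : K) (h : W.Nonsingular x y),
      P = Point.some x y h ∧ v x = γ⁻¹ ∧ v (y / x + ρ) < 1) ∨
  (γ = v W.a₄ ∧ ∃ (x y : K) (h : W.Nonsingular x y), P = Point.some x y h ∧ v x = v W.a₄)

variable {v W}

theorem node_step (h₁ : W.a₁ = 0) (h₃ : W.a₃ = 0) (h₆ : W.a₆ = 0)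
    (hM : v W.a₂ = 1) (hC0 : W.a₄ ≠ 0) (hC : v W.a₄ < 1) (h2 : v (2 : K) = 1)
    {x y : K} (hT : W.Nonsingular x y) (hx1 : v x < 1) (hxC : v W.a₄ < v x)
    (P : W.Point) (γ : Γ₀) (hP : InClass v W (y / x) P γ)
    (hint : ∀ (x' y' : K) (h' : W.Nonsingular x' y'),
      P + Point.some x y hT = Point.some x' y' h' → v x' ≤ 1)
    (hmid : ∀ (x' y' : K) (h' : W.Nonsingular x' y'),
      P + Point.some x y hT = Point.some x' y' h' → v x' ≤ v W.a₄ → v x' = v W.a₄) :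
    InClass v W (y / x) (P + Point.some x y hT) (γ * v x) ∨
      InClass v W (y / x) (P + Point.some x y hT) (γ * v x / v W.a₄ ^ 2) := by
  have hN0 : 0 < v W.a₄ := v_pos v hC0
  have hx0 : x ≠ 0 := by
    rintro rfl; rw [map_zero] at hxC; exact absurd hxC (not_lt.mpr zero_le)
  have ht0 : 0 < v x := v_pos v hx0
  have hE := special_equation W h₁ h₃ h₆ hT.1
  have hρ : v (y / x) = 1 := annulus_rho v hx0 hE hM hx1 hxC
  have h2ρ : v (2 * (y / x)) = 1 := by rw [map_mul, h2, hρ, one_mul]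
  rcases hP with ⟨rfl, hP⟩ | ⟨hγ1, hγ2, x₁, y₁, hP₁, rfl, hx₁, hρ₁⟩ |
    ⟨hγ1, hγ2, x₁, y₁, hP₁, rfl, hx₁, hρ₁⟩ | ⟨rfl, x₁, y₁, hP₁, rfl, hx₁⟩
  · -- unit class
    left
    rw [one_mul]
    rcases hP with rfl | ⟨x₁, y₁, hP₁, rfl, hx₁⟩
    · rw [zero_add]
      exact Or.inr (Or.inl ⟨hxC, hx1, x, y, hT, rfl, rfl, by simp⟩)
    · have hx₁0 : x₁ ≠ 0 := by
        rintro rfl; rw [map_zero] at hx₁; exact zero_ne_one hx₁
      have hE₁ := special_equation W h₁ h₃ h₆ hP₁.1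
      have hne : x₁ ≠ x := by
        rintro rfl; rw [hx₁] at hx1; exact lt_irrefl _ hx1
      obtain ⟨x₃, y₃, ℓ, β, hP₃, hadd, hch, -⟩ :=
        exists_chord W h₁ h₃ h₆ hP₁ hT (fun h => hne h.1)
      have hy₁ : v y₁ ≤ 1 := v_y_le_one v hE₁ hM.le hC.le hx₁.le
      have hρ₁ : v (y₁ / x₁) ≤ 1 := by rw [map_div₀, hx₁, div_one]; exact hy₁
      have hCx₁ : v (W.a₄ / x₁) < 1 := by rw [map_div₀, hx₁, div_one]; exact hC
      have hCx : v (W.a₄ / x) < 1 := (v_div_lt_one_iff v hx0).mpr hxC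
      have hu : v (x₁ - x + W.a₄ / x₁ - W.a₄ / x) = 1 :=
        v_sub_eq_one_of_eq_of_lt v
          (v_add_eq_one_of_eq_of_lt v (v_sub_eq_one_of_eq_of_lt v hx₁ hx1) hCx₁) hCx
      have hs := (rho_add_unit v hx₁0 hx0 hE₁ hE hρ₁ hρ.le hu).1
      have hv12 : v (x₁ * x) = v x := by rw [map_mul, hx₁, one_mul]
      obtain ⟨hx₃, hside⟩ := hch.U1 v hx₁0 hx0 hE₁ hE hs (by rw [hv12]; exact hxC)
        (by rw [hx₁]; exact hC) hx1
      rw [hadd]
      exact Or.inr (Or.inl ⟨hxC, hx1, x₃, y₃, hP₃, rfl, by rw [hx₃, hv12], hside⟩)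
  · -- plus class
    have hx₁0 : x₁ ≠ 0 := by
      rintro rfl; rw [map_zero] at hx₁; rw [← hx₁] at hγ1
      exact absurd hγ1 (not_lt.mpr zero_le)
    have hE₁ := special_equation W h₁ h₃ h₆ hP₁.1
    have hs : v (y₁ / x₁ + y / x) = 1 := by
      have : y₁ / x₁ + y / x = (y₁ / x₁ - y / x) + 2 * (y / x) := by ring
      rw [this]; exact v_add_eq_one_of_lt_of_eq v hρ₁ h2ρ
    have hninv : ¬(x₁ = x ∧ y₁ = -y) := by
      rintro ⟨rfl, rfl⟩
      rw [neg_div, neg_add_cancel, map_zero] at hs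
      exact zero_ne_one hs
    obtain ⟨x₃, y₃, ℓ, β, hP₃, hadd, hch, -⟩ := exists_chord W h₁ h₃ h₆ hP₁ hT hninv
    have hv12 : v (x₁ * x) = γ * v x := by rw [map_mul, hx₁]
    rw [hadd]
    rcases lt_trichotomy (v W.a₄) (γ * v x) with hlt | heq | hgt
    · left
      obtain ⟨hx₃, hside⟩ := hch.U1 v hx₁0 hx0 hE₁ hE hs (by rw [hv12]; exact hlt)
        (by rw [hx₁]; exact hγ1) hx1
      exact Or.inr (Or.inl ⟨hlt, mul_lt_one_of_lt_of_le hγ2 hx1.le, x₃, y₃, hP₃, rfl,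
        by rw [hx₃, hv12], hside⟩)
    · left
      have hx₃ := hch.U3 v hx₁0 hx0 hs (by rw [hv12]; exact heq.symm)
      have hx₃' := hmid x₃ y₃ hP₃ hadd hx₃
      exact Or.inr (Or.inr (Or.inr ⟨heq.symm, x₃, y₃, hP₃, rfl, hx₃'⟩))
    · right
      obtain ⟨hx₃, hside⟩ := hch.U2 v hx₁0 hx0 hC0 hs (by rw [hv12]; exact hgt) hxC
      have hγ0 : 0 < γ := lt_trans hN0 hγ1
      have hγt0 : 0 < γ * v x := mul_pos hγ0 ht0
      have hNN : v W.a₄ ^ 2 < γ * v x := by
        rw [pow_two]; exact mul_lt_mul'' hγ1 hxC zero_le zero_le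
      refine Or.inr (Or.inr (Or.inl ⟨?_, ?_, x₃, y₃, hP₃, rfl, ?_, hside⟩))
      · exact (one_lt_div₀ (pow_pos hN0 2)).mpr hNN
      · rw [inv_div, lt_div_iff₀ hγt0, pow_two]
        exact mul_lt_mul_of_pos_left hgt hN0
      · rw [hx₃, hv12, inv_div]
  · -- minus class
    have hγ0 : 0 < γ := lt_trans zero_lt_one hγ1
    have hx₁0 : x₁ ≠ 0 := by
      rintro rfl; rw [map_zero] at hx₁
      exact (inv_ne_zero hγ0.ne') hx₁.symm
    have hE₁ := special_equation W h₁ h₃ h₆ hP₁.1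
    have hx₁1 : v x₁ < 1 := by rw [hx₁]; exact inv_lt_one_of_one_lt₀ hγ1
    by_cases hinv : x₁ = x ∧ y₁ = -y
    · left
      obtain ⟨rfl, rfl⟩ := hinv
      have h0 : Point.some x₁ (-y) hP₁ + Point.some x₁ y hT = 0 :=
        Point.add_of_Y_eq rfl (by rw [special_negY W h₁ h₃])
      rw [h0, hx₁, mul_inv_cancel₀ hγ0.ne']
      exact Or.inl ⟨rfl, Or.inl rfl⟩
    · obtain ⟨x₃, y₃, ℓ, β, hP₃, hadd, hch, hcase⟩ := exists_chord W h₁ h₃ h₆ hP₁ hT hinv
      have hd : v (y / x - y₁ / x₁) = 1 := by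
        have : y / x - y₁ / x₁ = 2 * (y / x) - (y₁ / x₁ + y / x) := by ring
        rw [this]; exact v_sub_eq_one_of_eq_of_lt v h2ρ hρ₁
      have hne : x₁ ≠ x := by
        rcases hcase with ⟨hne, -⟩ | ⟨rfl, rfl, -, -⟩
        · exact hne
        · exfalso
          rw [sub_self, map_zero] at hd
          exact zero_ne_one hd
      rw [hadd]
      left
      rcases lt_trichotomy (v x₁) (v x) with hlt | heq | hgt
      · obtain ⟨hx₃, hside⟩ := hch.O1 v hx₁0 hx0 hd hlt hx1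
        have h1 : 1 < γ * v x := by
          rw [hx₁] at hlt
          have := mul_lt_mul_of_pos_left hlt hγ0
          rwa [mul_inv_cancel₀ hγ0.ne'] at this
        refine Or.inr (Or.inr (Or.inl ⟨h1, ?_, x₃, y₃, hP₃, rfl, ?_, hside⟩))
        · rw [mul_inv]
          calc v W.a₄ < γ⁻¹ := hγ2
            _ = γ⁻¹ * 1 := (mul_one _).symm
            _ ≤ γ⁻¹ * (v x)⁻¹ := mul_le_mul_right (one_le_inv₀ ht0 |>.mpr hx1.le) _
        · rw [hx₃, hx₁, mul_inv, div_eq_mul_inv]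
      · have hx₃ := hch.O3 v hx₁0 hx0 hne hd heq
        have hx₃' := hint x₃ y₃ hP₃ hadd
        have h1 : γ * v x = 1 := by rw [← heq, hx₁, mul_inv_cancel₀ hγ0.ne']
        rw [h1]
        exact Or.inl ⟨rfl, Or.inr ⟨x₃, y₃, hP₃, rfl, le_antisymm hx₃' hx₃⟩⟩
      · have hd' : v (y₁ / x₁ - y / x) = 1 := by rw [v.map_sub_swap]; exact hd
        obtain ⟨hx₃, hside⟩ := hch.symm.O1 v hx0 hx₁0 hd' hgt hx₁1
        have hside' : v (y₃ / x₃ - y / x) < 1 := by
          have : y₃ / x₃ - y / x = (y₃ / x₃ + y₁ / x₁) - (y₁ / x₁ + y / x) := by ring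
          rw [this]; exact v.map_sub_lt hside hρ₁
        have h1 : γ * v x < 1 := by
          rw [hx₁] at hgt
          have := mul_lt_mul_of_pos_left hgt hγ0
          rwa [mul_inv_cancel₀ hγ0.ne'] at this
        refine Or.inr (Or.inl ⟨?_, h1, x₃, y₃, hP₃, rfl, ?_, hside'⟩)
        · calc v W.a₄ < v x := hxC
            _ = 1 * v x := (one_mul _).symm
            _ ≤ γ * v x := mul_le_mul_left hγ1.le _
        · rw [hx₃, hx₁, div_inv_eq_mul, mul_comm]
  · -- middle class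
    right
    have hx₁0 : x₁ ≠ 0 := by
      rintro rfl; rw [map_zero] at hx₁; exact hN0.ne' hx₁.symm
    have hE₁ := special_equation W h₁ h₃ h₆ hP₁.1
    have hne : x₁ ≠ x := by
      rintro rfl; rw [hx₁] at hxC; exact lt_irrefl _ hxC
    obtain ⟨x₃, y₃, ℓ, β, hP₃, hadd, hch, -⟩ :=
      exists_chord W h₁ h₃ h₆ hP₁ hT (fun h => hne h.1)
    have hx₁1 : v x₁ < 1 := by rw [hx₁]; exact hC
    have hCx₁ : v (W.a₄ / x₁) = 1 := (v_div_eq_one_iff v hx₁0).mpr hx₁.symm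
    have hCx : v (W.a₄ / x) < 1 := (v_div_lt_one_iff v hx0).mpr hxC
    have hρ₁ : v (y₁ / x₁) ≤ 1 := by
      apply v_le_one_of_sq_le_one
      rw [rho_sq hx₁0 hE₁]
      exact v.map_add_le (v.map_add_le hx₁1.le hM.le) hCx₁.le
    have hu : v (x₁ - x + W.a₄ / x₁ - W.a₄ / x) = 1 :=
      v_sub_eq_one_of_eq_of_lt v
        (v_add_eq_one_of_lt_of_eq v (v.map_sub_lt hx₁1 hx1) hCx₁) hCx
    have hs := (rho_add_unit v hx₁0 hx0 hE₁ hE hρ₁ hρ.le hu).1
    have hv12 : v (x₁ * x) = v W.a₄ * v x := by rw [map_mul, hx₁]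
    have hlt : v (x₁ * x) < v W.a₄ := by
      rw [hv12]
      calc v W.a₄ * v x < v W.a₄ * 1 := mul_lt_mul_of_pos_left hx1 hN0
        _ = v W.a₄ := mul_one _
    obtain ⟨hx₃, hside⟩ := hch.U2 v hx₁0 hx0 hC0 hs hlt hxC
    rw [hadd]
    have hNt0 : 0 < v W.a₄ * v x := mul_pos hN0 ht0
    refine Or.inr (Or.inr (Or.inl ⟨?_, ?_, x₃, y₃, hP₃, rfl, ?_, hside⟩))
    · rw [one_lt_div₀ (pow_pos hN0 2), pow_two]
      exact mul_lt_mul_of_pos_left hxC hN0
    · rw [inv_div, lt_div_iff₀ hNt0, pow_two]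
      exact mul_lt_mul_of_pos_left (by rw [← hv12]; exact hlt) hN0
    · rw [hx₃, hv12, inv_div]

/-- Torsion points (of order a unit of the valuation ring) are integral. -/
def TorsInt (v : Valuation K Γ₀) (W : Affine K) : Prop :=
  ∀ (n : ℕ), v (n : K) = 1 → ∀ (x y : K) (h : W.Nonsingular x y),
    n • Point.some x y h = 0 → v x ≤ 1

omit [DecidableEq K] in
theorem point_cases (P : W.Point) :
    P = 0 ∨ ∃ (x y : K) (h : W.Nonsingular x y), P = Point.some x y h := by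
  cases P with
  | zero => exact Or.inl rfl
  | some x y h => exact Or.inr ⟨x, y, h, rfl⟩

omit [DecidableEq K] in
theorem InClass.eq_one_of_zero {ρ : K} {γ : Γ₀} (h : InClass v W ρ 0 γ) : γ = 1 := by
  rcases h with ⟨h, -⟩ | ⟨-, -, x, y, hP, h0, -⟩ | ⟨-, -, x, y, hP, h0, -⟩ | ⟨-, x, y, hP, h0, -⟩
  · exact h
  · exact absurd h0.symm (Point.some_ne_zero hP)
  · exact absurd h0.symm (Point.some_ne_zero hP)
  · exact absurd h0.symm (Point.some_ne_zero hP)

/-- A torsion point of odd order with `v x ≤ v C` has `v x = v C` (translate by `(0, 0)`). -/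
theorem mid_eq (h₁ : W.a₁ = 0) (h₃ : W.a₃ = 0) (h₆ : W.a₆ = 0) (hC0 : W.a₄ ≠ 0)
    (TI : TorsInt v W) {p : ℕ} (hodd : Odd p) (hvp : v (p : K) = 1) (h2 : v (2 : K) = 1)
    {x y : K} (hQ : W.Nonsingular x y) (hpQ : p • Point.some x y hQ = 0)
    (hle : v x ≤ v W.a₄) : v x = v W.a₄ := by
  have hT₀ : W.Nonsingular 0 0 := (nonsingular_zero).mpr ⟨h₆, Or.inr hC0⟩
  have h2T₀ : (2 : ℕ) • Point.some 0 0 hT₀ = 0 := by
    rw [two_nsmul]
    exact Point.add_self_of_Y_eq (by rw [special_negY W h₁ h₃]; simp)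
  have hx0 : x ≠ 0 := by
    rintro rfl
    have hy : y = 0 := by
      have := special_equation W h₁ h₃ h₆ hQ.1
      have : y ^ 2 = 0 := by rw [this]; ring
      exact pow_eq_zero_iff (two_ne_zero) |>.mp this
    subst hy
    obtain ⟨m, rfl⟩ := hodd
    have : (2 * m + 1) • Point.some 0 0 hQ = Point.some 0 0 hQ := by
      rw [add_nsmul, mul_nsmul, h2T₀, nsmul_zero, zero_add, one_nsmul]
    rw [this] at hpQ
    exact Point.some_ne_zero hQ hpQ
  obtain ⟨x₃, y₃, ℓ, β, hP₃, hadd, hch, -⟩ :=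
    exists_chord W h₁ h₃ h₆ hQ hT₀ (fun h => hx0 h.1)
  have hprod : x * x₃ = W.a₄ := hch.mul_eq_of_zero
  have htors : (2 * p) • Point.some x₃ y₃ hP₃ = 0 := by
    rw [← hadd, nsmul_add, mul_nsmul', hpQ, nsmul_zero, zero_add, mul_nsmul, h2T₀,
      nsmul_zero]
  have hv2p : v ((2 * p : ℕ) : K) = 1 := by
    rw [Nat.cast_mul, map_mul, Nat.cast_ofNat, h2, hvp, one_mul]
  have hx₃ : v x₃ ≤ 1 := TI (2 * p) hv2p x₃ y₃ hP₃ htors
  refine le_antisymm hle ?_
  rw [← hprod, map_mul]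
  calc v x * v x₃ ≤ v x * 1 := mul_le_mul_right hx₃ _
    _ = v x := mul_one _

/-- The classes of all the multiples of a torsion point in the annulus. -/
theorem node_multiples (h₁ : W.a₁ = 0) (h₃ : W.a₃ = 0) (h₆ : W.a₆ = 0)
    (hM : v W.a₂ = 1) (hC0 : W.a₄ ≠ 0) (hC : v W.a₄ < 1) (h2 : v (2 : K) = 1)
    (TI : TorsInt v W) {p : ℕ} (hodd : Odd p) (hvp : v (p : K) = 1)
    {x y : K} (hT : W.Nonsingular x y) (hx1 : v x < 1) (hxC : v W.a₄ < v x)
    (hpT : p • Point.some x y hT = 0) (k : ℕ) :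
    ∃ j : ℕ, InClass v W (y / x) (k • Point.some x y hT) (v x ^ k / v W.a₄ ^ (2 * j)) := by
  have hN0 : v W.a₄ ≠ 0 := (v.ne_zero_iff).mpr hC0
  induction k with
  | zero =>
    refine ⟨0, ?_⟩
    rw [zero_nsmul]
    exact Or.inl ⟨by simp, Or.inl rfl⟩
  | succ k ih =>
    obtain ⟨j, hj⟩ := ih
    have hpk : ∀ (x' y' : K) (h' : W.Nonsingular x' y'),
        k • Point.some x y hT + Point.some x y hT = Point.some x' y' h' →
        p • Point.some x' y' h' = 0 := by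
      intro x' y' h' he
      rw [← he, ← succ_nsmul, ← mul_nsmul, mul_comm, mul_nsmul, hpT, nsmul_zero]
    have hint : ∀ (x' y' : K) (h' : W.Nonsingular x' y'),
        k • Point.some x y hT + Point.some x y hT = Point.some x' y' h' → v x' ≤ 1 :=
      fun x' y' h' he => TI p hvp x' y' h' (hpk x' y' h' he)
    have hmid : ∀ (x' y' : K) (h' : W.Nonsingular x' y'),
        k • Point.some x y hT + Point.some x y hT = Point.some x' y' h' →
        v x' ≤ v W.a₄ → v x' = v W.a₄ :=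
      fun x' y' h' he hle => mid_eq h₁ h₃ h₆ hC0 TI hodd hvp h2 h' (hpk x' y' h' he) hle
    rcases node_step h₁ h₃ h₆ hM hC0 hC h2 hT hx1 hxC _ _ hj hint hmid with hcl | hcl
    · refine ⟨j, ?_⟩
      rw [succ_nsmul]
      have : v x ^ (k + 1) / v W.a₄ ^ (2 * j) = v x ^ k / v W.a₄ ^ (2 * j) * v x := by
        rw [pow_succ]; field_simp
      rw [this]; exact hcl
    · refine ⟨j + 1, ?_⟩
      rw [succ_nsmul]
      have : v x ^ (k + 1) / v W.a₄ ^ (2 * (j + 1)) =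
          v x ^ k / v W.a₄ ^ (2 * j) * v x / v W.a₄ ^ 2 := by
        rw [pow_succ, mul_add, pow_add]; field_simp
      rw [this]; exact hcl

/-- The depth of a torsion point in the annulus is commensurable with that of `C`. -/
theorem node_depth (h₁ : W.a₁ = 0) (h₃ : W.a₃ = 0) (h₆ : W.a₆ = 0)
    (hM : v W.a₂ = 1) (hC0 : W.a₄ ≠ 0) (hC : v W.a₄ < 1) (h2 : v (2 : K) = 1)
    (TI : TorsInt v W) {p : ℕ} (hodd : Odd p) (hvp : v (p : K) = 1)
    {x y : K} (hT : W.Nonsingular x y) (hx1 : v x < 1) (hxC : v W.a₄ < v x)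
    (hpT : p • Point.some x y hT = 0) :
    ∃ j : ℕ, v x ^ p = v W.a₄ ^ (2 * j) := by
  obtain ⟨j, hj⟩ := node_multiples h₁ h₃ h₆ hM hC0 hC h2 TI hodd hvp hT hx1 hxC hpT p
  rw [hpT] at hj
  have := hj.eq_one_of_zero
  refine ⟨j, ?_⟩
  have hN0 : v W.a₄ ^ (2 * j) ≠ 0 := pow_ne_zero _ ((v.ne_zero_iff).mpr hC0)
  exact (div_eq_one_iff_eq hN0).mp this

omit [DecidableEq K] in
theorem some_congr {x y x' y' : K} (h : W.Nonsingular x y) (h' : W.Nonsingular x' y')
    (hx : x = x') (hy : y = y') : Point.some x y h = Point.some x' y' h' := by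
  subst hx; subst hy; rfl

/-- Halving a point of odd order. -/
theorem exists_half {p : ℕ} (hodd : Odd p) (T : W.Point) (hpT : p • T = 0) :
    ∃ T' : W.Point, 2 • T' = T ∧ p • T' = 0 := by
  obtain ⟨m, rfl⟩ := hodd
  refine ⟨(m + 1) • T, ?_, ?_⟩
  · rw [← mul_nsmul']
    have : 2 * (m + 1) = (2 * m + 1) + 1 := by ring
    rw [this, add_nsmul, hpT, zero_add, one_nsmul]
  · rw [← mul_nsmul', mul_comm, mul_nsmul', hpT, nsmul_zero]

/-- The chord data of a doubling. -/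
theorem exists_chord_double (h₁ : W.a₁ = 0) (h₃ : W.a₃ = 0) (h₆ : W.a₆ = 0)
    {x' y' x y : K} (hT' : W.Nonsingular x' y') (hT : W.Nonsingular x y)
    (hdbl : 2 • Point.some x' y' hT' = Point.some x y hT) :
    ∃ ℓ β : K, Chord W.a₂ W.a₄ x' y' x' y' x y ℓ β ∧ y' ≠ 0 ∧
      2 * y' * ℓ = 3 * x' ^ 2 + 2 * W.a₂ * x' + W.a₄ := by
  rw [two_nsmul] at hdbl
  have hninv : ¬(x' = x' ∧ y' = -y') := by
    rintro ⟨-, hy⟩
    have : Point.some x' y' hT' + Point.some x' y' hT' = 0 :=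
      Point.add_self_of_Y_eq (by rw [special_negY W h₁ h₃]; exact hy)
    rw [this] at hdbl
    exact Point.some_ne_zero hT hdbl.symm
  obtain ⟨x₃, y₃, ℓ, β, hP₃, hadd, hch, hcase⟩ := exists_chord W h₁ h₃ h₆ hT' hT' hninv
  rw [hadd, Point.some.injEq] at hdbl
  obtain ⟨rfl, rfl⟩ := hdbl
  rcases hcase with ⟨hne, -⟩ | ⟨-, -, hy0, hl⟩
  · exact absurd rfl hne
  · exact ⟨ℓ, β, hch, hy0, hl⟩

/-- Doubling a point of the annulus lands in the maximal ideal. -/
theorem annulus_double (h₁ : W.a₁ = 0) (h₃ : W.a₃ = 0) (h₆ : W.a₆ = 0)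
    (hM : v W.a₂ = 1) (hC0 : W.a₄ ≠ 0) (h2 : v (2 : K) = 1)
    {x' y' x y : K} (hT' : W.Nonsingular x' y') (hT : W.Nonsingular x y)
    (hdbl : 2 • Point.some x' y' hT' = Point.some x y hT)
    (hx1 : v x' < 1) (hxC : v W.a₄ < v x') :
    v x < 1 ∧ (v x ≤ v W.a₄ → v (x' * x') = v W.a₄) := by
  have hN0 : 0 < v W.a₄ := v_pos v hC0
  have hx0 : x' ≠ 0 := by
    rintro rfl; rw [map_zero] at hxC; exact absurd hxC (not_lt.mpr zero_le)
  have hE := special_equation W h₁ h₃ h₆ hT'.1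
  have hρ : v (y' / x') = 1 := annulus_rho v hx0 hE hM hx1 hxC
  obtain ⟨ℓ, β, hch, -, -⟩ := exists_chord_double h₁ h₃ h₆ hT' hT hdbl
  have hs : v (y' / x' + y' / x') = 1 := by
    have : y' / x' + y' / x' = 2 * (y' / x') := by ring
    rw [this, map_mul, h2, hρ, one_mul]
  have hxx1 : v (x' * x') < 1 := v_mul_lt_one_of_lt_of_le v hx1 hx1.le
  rcases lt_trichotomy (v W.a₄) (v (x' * x')) with hlt | heq | hgt
  · obtain ⟨hx₃, -⟩ := hch.U1 v hx0 hx0 hE hE hs hlt hxC hx1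
    rw [hx₃]
    exact ⟨hxx1, fun hle => absurd hle (not_le.mpr hlt)⟩
  · have hx₃ := hch.U3 v hx0 hx0 hs heq.symm
    exact ⟨lt_of_le_of_lt hx₃ (by rw [heq]; exact hxx1), fun _ => heq.symm⟩
  · obtain ⟨hx₃, -⟩ := hch.U2 v hx0 hx0 hC0 hs hgt hxC
    have hxx0 : 0 < v (x' * x') := v_pos v (mul_ne_zero hx0 hx0)
    have hNN : v W.a₄ ^ 2 < v (x' * x') := by
      rw [pow_two, map_mul]; exact mul_lt_mul'' hxC hxC zero_le zero_le
    rw [hx₃]
    refine ⟨(div_lt_one₀ hxx0).mpr hNN, fun hle => ?_⟩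
    exfalso
    rw [div_le_iff₀ hxx0, pow_two] at hle
    have := le_of_mul_le_mul_left hle hN0
    exact absurd this (not_le.mpr hgt)

/-- There are no torsion points of odd order (a unit) in the "middle" class. -/
theorem no_mid_torsion (h₁ : W.a₁ = 0) (h₃ : W.a₃ = 0) (h₆ : W.a₆ = 0)
    (hM : v W.a₂ = 1) (hC0 : W.a₄ ≠ 0) (hC : v W.a₄ < 1) (h2 : v (2 : K) = 1)
    (TI : TorsInt v W) {p : ℕ} (hodd : Odd p) (hvp : v (p : K) = 1)
    {x y : K} (hT : W.Nonsingular x y) (hpT : p • Point.some x y hT = 0)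
    (hle : v x ≤ v W.a₄) : False := by
  have hN0 : 0 < v W.a₄ := v_pos v hC0
  obtain ⟨T', h2T', hpT'⟩ := exists_half hodd _ hpT
  rcases point_cases T' with rfl | ⟨x', y', hT', rfl⟩
  · rw [nsmul_zero] at h2T'
    exact Point.some_ne_zero hT h2T'.symm
  have hE' := special_equation W h₁ h₃ h₆ hT'.1
  have hx'le : v x' ≤ 1 := TI p hvp x' y' hT' hpT'
  have hy'le : v y' ≤ 1 := v_y_le_one v hE' hM.le hC.le hx'le
  obtain ⟨ℓ, β, hch, hy0, hl⟩ := exists_chord_double h₁ h₃ h₆ hT' hT h2T'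
  have hval := hch.dbl_val v hE' hy0 hl h2
  have hy0' : 0 < v y' ^ 2 := pow_pos (v_pos v hy0) 2
  have hxlt : v x < 1 := lt_of_le_of_lt hle hC
  rcases lt_or_eq_of_le hx'le with hx'lt | hx'1
  · rcases lt_or_ge (v W.a₄) (v x') with hann | hmid
    · -- annulus
      have h3 := (annulus_double h₁ h₃ h₆ hM hC0 h2 hT' hT h2T' hx'lt hann).2 hle
      obtain ⟨j, hj⟩ := node_depth h₁ h₃ h₆ hM hC0 hC h2 TI hodd hvp hT' hx'lt hann hpT'
      have h4 : v W.a₄ ^ p = v W.a₄ ^ (4 * j) := by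
        calc v W.a₄ ^ p = (v x' * v x') ^ p := by rw [← h3, map_mul]
          _ = (v x' ^ p) ^ 2 := by rw [← pow_two, ← pow_mul, ← pow_mul, mul_comm]
          _ = v W.a₄ ^ (4 * j) := by
            rw [hj, ← pow_mul]; congr 1; ring
      have h5 : p = 4 * j := by
        rcases lt_trichotomy p (4 * j) with hlt | heq | hgt
        · exact absurd h4 (ne_of_gt (pow_lt_pow_right_of_lt_one₀ hN0 hC hlt))
        · exact heq
        · exact absurd h4 (ne_of_lt (pow_lt_pow_right_of_lt_one₀ hN0 hC hgt))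
      obtain ⟨m, hm⟩ := hodd
      omega
    · -- middle
      have hxx : v (x' ^ 2) < v W.a₄ := by
        rw [map_pow, pow_two]
        calc v x' * v x' ≤ v W.a₄ * v W.a₄ := mul_le_mul' hmid hmid
          _ < v W.a₄ * 1 := mul_lt_mul_of_pos_left hC hN0
          _ = v W.a₄ := mul_one _
      have h3 : v (x' ^ 2 - W.a₄) = v W.a₄ := v.map_sub_eq_of_lt_right hxx
      have h4 : v y' ^ 2 ≤ v W.a₄ ^ 2 := by
        rw [← map_pow, hE']
        have e : x' ^ 3 + W.a₂ * x' ^ 2 + W.a₄ * x' = x' * (x' ^ 2 + W.a₂ * x' + W.a₄) := by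
          ring
        have hMx : v (W.a₂ * x') ≤ v W.a₄ := by
          rw [map_mul]
          calc v W.a₂ * v x' ≤ 1 * v x' := mul_le_mul_left hM.le _
            _ = v x' := one_mul _
            _ ≤ v W.a₄ := hmid
        rw [e, map_mul]
        calc v x' * v (x' ^ 2 + W.a₂ * x' + W.a₄) ≤ v W.a₄ * v W.a₄ :=
              mul_le_mul' hmid (v.map_add_le (v.map_add_le hxx.le hMx) le_rfl)
          _ = v W.a₄ ^ 2 := (pow_two _).symm
      rw [h3] at hval
      have h5 : v x * v y' ^ 2 < 1 * v y' ^ 2 := mul_lt_mul_of_pos_right hxlt hy0'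
      rw [hval, one_mul] at h5
      exact absurd h4 (not_le.mpr h5)
  · -- unit
    have h3 : v (x' ^ 2 - W.a₄) = 1 := by
      apply v_sub_eq_one_of_eq_of_lt v _ hC
      rw [map_pow, hx'1, one_pow]
    rw [h3, one_pow] at hval
    have h5 : v x * v y' ^ 2 < 1 * v y' ^ 2 := mul_lt_mul_of_pos_right hxlt hy0'
    rw [hval, one_mul] at h5
    exact absurd (pow_le_one' hy'le 2) (not_le.mpr h5)

section fixed

variable (σ : K →+* K) (φ : W.Point →+ W.Point)

/-- The difference `φ T - T` as a sum of two affine points, with its torsion property. -/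
theorem exists_chord_diff (h₁ : W.a₁ = 0) (h₃ : W.a₃ = 0) (h₆ : W.a₆ = 0)
    (TI : TorsInt v W) {p : ℕ} (hvp : v (p : K) = 1)
    {x y : K} (hT : W.Nonsingular x y) (hpT : p • Point.some x y hT = 0)
    (hT' : W.Nonsingular (σ x) (σ y))
    (hφT : φ (Point.some x y hT) = Point.some (σ x) (σ y) hT') (hxx : σ x ≠ x) :
    ∃ x₃ y₃ ℓ β : K, Chord W.a₂ W.a₄ (σ x) (σ y) x (-y) x₃ y₃ ℓ β ∧ v x₃ ≤ 1 := by
  have hneg : W.Nonsingular x (-y) := by
    have := (nonsingular_neg x y).mpr hT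
    rwa [special_negY W h₁ h₃] at this
  have e1 : Point.some x (-y) hneg = -Point.some x y hT := by
    rw [Point.neg_some]
    exact some_congr _ _ rfl (special_negY W h₁ h₃ x y).symm
  obtain ⟨x₃, y₃, ℓ, β, hP₃, hadd, hch, -⟩ :=
    exists_chord W h₁ h₃ h₆ hT' hneg (fun h => hxx h.1)
  have htors : p • Point.some x₃ y₃ hP₃ = 0 := by
    rw [← hadd, e1, ← hφT, nsmul_add, ← map_nsmul, hpT, map_zero, zero_add, smul_neg, hpT,
      neg_zero]
  exact ⟨x₃, y₃, ℓ, β, hch, TI p hvp x₃ y₃ hP₃ htors⟩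

/-- A torsion point with unit coordinates is fixed. -/
theorem fixed_of_unit (h₁ : W.a₁ = 0) (h₃ : W.a₃ = 0) (h₆ : W.a₆ = 0) (h2 : v (2 : K) = 1)
    (TI : TorsInt v W) {p : ℕ} (hvp : v (p : K) = 1)
    (hσ : ∀ a : K, v a ≤ 1 → v (σ a - a) < 1)
    (hφ : ∀ (x y : K) (h : W.Nonsingular x y), ∃ h' : W.Nonsingular (σ x) (σ y),
      φ (Point.some x y h) = Point.some (σ x) (σ y) h')
    {x y : K} (hT : W.Nonsingular x y) (hpT : p • Point.some x y hT = 0)
    (hx : v x = 1) (hy : v y = 1) : φ (Point.some x y hT) = Point.some x y hT := by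
  obtain ⟨hT', hφT⟩ := hφ x y hT
  have hσx : v (σ x - x) < 1 := hσ x hx.le
  have hσy : v (σ y - y) < 1 := hσ y hy.le
  by_cases hxx : σ x = x
  · rw [hφT]
    rcases Y_eq_of_X_eq hT'.1 hT.1 hxx with hyy | hyy
    · exact some_congr _ _ hxx hyy
    · exfalso
      rw [special_negY W h₁ h₃] at hyy
      rw [hyy] at hσy
      have : -y - y = -(2 * y) := by ring
      rw [this, Valuation.map_neg, map_mul, h2, hy, one_mul] at hσy
      exact lt_irrefl _ hσy
  · exfalso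
    obtain ⟨x₃, y₃, ℓ, β, hch, hx₃⟩ := exists_chord_diff σ φ h₁ h₃ h₆ TI hvp hT hpT hT' hφT hxx
    have hvσx : v (σ x) = 1 := by
      have : σ x = x + (σ x - x) := by ring
      rw [this]; exact v_add_eq_one_of_eq_of_lt v hx hσx
    have hnum : v (σ x * (-y) - x * σ y) = 1 := by
      have : σ x * (-y) - x * σ y = -(2 * (x * y) + ((σ x - x) * y + x * (σ y - y))) := by ring
      rw [this, Valuation.map_neg]
      apply v_add_eq_one_of_eq_of_lt v
      · rw [map_mul, map_mul, h2, hx, hy, one_mul, one_mul]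
      · exact v.map_add_lt (v_mul_lt_one_of_lt_of_le v hσx hy.le)
          (v_mul_lt_one_of_le_of_lt v hx.le hσy)
    have hlt : v (σ x - x) ^ 2 * (v (σ x) * v x) < v (σ x * (-y) - x * σ y) ^ 2 := by
      rw [hnum, hvσx, hx, one_pow, mul_one, mul_one]
      exact (pow_lt_one_iff two_ne_zero).mpr hσx
    exact absurd hx₃ (not_le.mpr (hch.diff v hlt))

/-- A torsion point in the annulus is fixed, provided `C` is a unit times a `p`-th power of a
fixed element. -/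
theorem fixed_of_annulus (h₁ : W.a₁ = 0) (h₃ : W.a₃ = 0) (h₆ : W.a₆ = 0)
    (hM : v W.a₂ = 1) (hC0 : W.a₄ ≠ 0) (hC : v W.a₄ < 1) (h2 : v (2 : K) = 1)
    (TI : TorsInt v W) {p : ℕ} (hodd : Odd p) (hvp : v (p : K) = 1)
    (hσ : ∀ a : K, v a ≤ 1 → v (σ a - a) < 1)
    (hφ : ∀ (x y : K) (h : W.Nonsingular x y), ∃ h' : W.Nonsingular (σ x) (σ y),
      φ (Point.some x y h) = Point.some (σ x) (σ y) h')
    {g κ : K} (hσg : σ g = g) (hκ : v κ = 1) (hCg : W.a₄ = κ * g ^ p)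
    {x y : K} (hT : W.Nonsingular x y) (hpT : p • Point.some x y hT = 0)
    (hx1 : v x < 1) (hxC : v W.a₄ < v x) : φ (Point.some x y hT) = Point.some x y hT := by
  have hp0 : p ≠ 0 := by
    rintro rfl; simp at hodd
  have hx0 : x ≠ 0 := by
    rintro rfl; rw [map_zero] at hxC; exact absurd hxC (not_lt.mpr zero_le)
  have ht0 : 0 < v x := v_pos v hx0
  have hE := special_equation W h₁ h₃ h₆ hT.1
  have hρ : v (y / x) = 1 := annulus_rho v hx0 hE hM hx1 hxC
  obtain ⟨j, hj⟩ := node_depth h₁ h₃ h₆ hM hC0 hC h2 TI hodd hvp hT hx1 hxC hpT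
  have hg0 : g ≠ 0 := by
    rintro rfl
    rw [zero_pow hp0, mul_zero] at hCg
    exact hC0 hCg
  -- `v x = v (g ^ (2 * j))`
  have hvx : v x = v (g ^ (2 * j)) := by
    have : v x ^ p = v (g ^ (2 * j)) ^ p := by
      rw [hj, hCg, map_mul, hκ, one_mul, map_pow, map_pow, ← pow_mul, ← pow_mul, mul_comm]
    exact (pow_left_inj hp0).mp this
  have hgj0 : g ^ (2 * j) ≠ 0 := pow_ne_zero _ hg0
  have hε : v (x / g ^ (2 * j)) = 1 := (v_div_eq_one_iff v hgj0).mpr hvx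
  have hσε := hσ _ hε.le
  have hσx : v (σ x - x) < v x := by
    have : σ x - x = (σ (x / g ^ (2 * j)) - x / g ^ (2 * j)) * g ^ (2 * j) := by
      rw [map_div₀, map_pow, hσg]; field_simp
    rw [this, map_mul, hvx]
    calc v (σ (x / g ^ (2 * j)) - x / g ^ (2 * j)) * v (g ^ (2 * j))
        < 1 * v (g ^ (2 * j)) := mul_lt_mul_of_pos_right hσε (v_pos v hgj0)
      _ = v (g ^ (2 * j)) := one_mul _
  have hvσx : v (σ x) = v x := by
    have : σ x = x + (σ x - x) := by ring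
    rw [this]; exact v.map_add_eq_of_lt_left hσx
  have hσx0 : σ x ≠ 0 := by
    intro h0; rw [h0, map_zero] at hvσx; exact ht0.ne' hvσx.symm
  have hσρ : v (σ y / σ x - y / x) < 1 := by
    have := hσ _ hρ.le
    rwa [map_div₀] at this
  obtain ⟨hT', hφT⟩ := hφ x y hT
  by_cases hxx : σ x = x
  · rw [hφT]
    rcases Y_eq_of_X_eq hT'.1 hT.1 hxx with hyy | hyy
    · exact some_congr _ _ hxx hyy
    · exfalso
      rw [special_negY W h₁ h₃] at hyy
      rw [hyy, hxx] at hσρ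
      have : -y / x - y / x = -(2 * (y / x)) := by ring
      rw [this, Valuation.map_neg, map_mul, h2, hρ, one_mul] at hσρ
      exact lt_irrefl _ hσρ
  · exfalso
    obtain ⟨x₃, y₃, ℓ, β, hch, hx₃⟩ := exists_chord_diff σ φ h₁ h₃ h₆ TI hvp hT hpT hT' hφT hxx
    have hnum : v (σ x * (-y) - x * σ y) = v x * v x := by
      have : σ x * (-y) - x * σ y = -(x * σ x * (2 * (y / x) + (σ y / σ x - y / x))) := by
        field_simp; ring
      rw [this, Valuation.map_neg, map_mul, map_mul, hvσx]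
      have : v (2 * (y / x) + (σ y / σ x - y / x)) = 1 := by
        apply v_add_eq_one_of_eq_of_lt v _ hσρ
        rw [map_mul, h2, hρ, one_mul]
      rw [this, mul_one]
    have hlt : v (σ x - x) ^ 2 * (v (σ x) * v x) < v (σ x * (-y) - x * σ y) ^ 2 := by
      rw [hnum, hvσx, pow_two (v x * v x)]
      have h3 : v (σ x - x) ^ 2 < v x * v x := by
        rw [← pow_two]; exact pow_lt_pow_left₀ hσx zero_le two_ne_zero
      exact mul_lt_mul_of_pos_right h3 (mul_pos ht0 ht0)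
    exact absurd hx₃ (not_le.mpr (hch.diff v hlt))

/-- **Main local theorem.** Let `W : y² = x³ + M x² + C x` over a valued field, with either
good reduction (`M` integral, `C` and `M² - 4C` units) or nodal reduction at the origin (`M` a
unit, `C` a nonzero non-unit of the shape unit times a `p`-th power of a `σ`-fixed element).
Let `σ` be a ring endomorphism moving every integral element by a non-unit, acting on the
points through the additive map `φ`. If torsion points of unit order are integral, then `φ`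
fixes every point of odd order `p` (a unit). -/
theorem fixed_of_torsion (h₁ : W.a₁ = 0) (h₃ : W.a₃ = 0) (h₆ : W.a₆ = 0) (h2 : v (2 : K) = 1)
    (TI : TorsInt v W) {p : ℕ} (hodd : Odd p) (hvp : v (p : K) = 1)
    (hσ : ∀ a : K, v a ≤ 1 → v (σ a - a) < 1)
    (hφ : ∀ (x y : K) (h : W.Nonsingular x y), ∃ h' : W.Nonsingular (σ x) (σ y),
      φ (Point.some x y h) = Point.some (σ x) (σ y) h')
    (hcase : (v W.a₂ ≤ 1 ∧ v W.a₄ = 1 ∧ v (W.a₂ ^ 2 - 4 * W.a₄) = 1) ∨
      (v W.a₂ = 1 ∧ v W.a₄ < 1 ∧ W.a₄ ≠ 0 ∧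
        ∃ g κ : K, σ g = g ∧ v κ = 1 ∧ W.a₄ = κ * g ^ p))
    (T : W.Point) (hpT : p • T = 0) : φ T = T := by
  rcases point_cases T with rfl | ⟨x, y, hT, rfl⟩
  · exact map_zero φ
  obtain ⟨T', h2T', hpT'⟩ := exists_half hodd _ hpT
  rcases point_cases T' with rfl | ⟨x', y', hT', rfl⟩
  · rw [nsmul_zero] at h2T'
    exact absurd h2T'.symm (Point.some_ne_zero hT)
  have key : φ (Point.some x' y' hT') = Point.some x' y' hT' →
      φ (Point.some x y hT) = Point.some x y hT := by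
    intro h; rw [← h2T', map_nsmul, h]
  have hxle : v x ≤ 1 := TI p hvp x y hT hpT
  have hx'le : v x' ≤ 1 := TI p hvp x' y' hT' hpT'
  have hE' := special_equation W h₁ h₃ h₆ hT'.1
  obtain ⟨ℓ, β, hch, hy0, hl⟩ := exists_chord_double h₁ h₃ h₆ hT' hT h2T'
  have hval := hch.dbl_val v hE' hy0 hl h2
  have e : y' ^ 2 = x' * (x' ^ 2 + W.a₂ * x' + W.a₄) := by rw [hE']; ring
  have hx'2 : v (x' ^ 2) ≤ 1 := by rw [map_pow]; exact pow_le_one' hx'le 2
  rcases hcase with ⟨hM, hC, hdisc⟩ | ⟨hM, hC, hC0, g, κ, hσg, hκ, hCg⟩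
  · -- good reduction
    have hy'le : v y' ≤ 1 := v_y_le_one v hE' hM hC.le hx'le
    have hq : v (x' ^ 2 + W.a₂ * x' + W.a₄) ≤ 1 :=
      v.map_add_le (v.map_add_le hx'2 (v_mul_le_one v hM hx'le)) hC.le
    have hy'1 : v y' = 1 := by
      by_contra hne
      have hy'lt : v y' < 1 := lt_of_le_of_ne hy'le hne
      have hunit : v (x' ^ 2 - W.a₄) = 1 := by
        by_contra hne2
        have hlt : v (x' ^ 2 - W.a₄) < 1 := lt_of_le_of_ne (v.map_sub_le hx'2 hC.le) hne2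
        have hx'1 : v x' = 1 := by
          by_contra hne3
          have h3 : v x' < 1 := lt_of_le_of_ne hx'le hne3
          exact hne2 (v_sub_eq_one_of_lt_of_eq v (v_sq_lt_one v h3) hC)
        have hq' : v (x' ^ 2 + W.a₂ * x' + W.a₄) < 1 := by
          have h3 := congrArg v e
          rw [map_pow, map_mul, hx'1, one_mul] at h3
          rw [← h3]; exact (pow_lt_one_iff two_ne_zero).mpr hy'lt
        have hid : W.a₄ * (W.a₂ ^ 2 - 4 * W.a₄) = -(W.a₂ ^ 2 * (x' ^ 2 - W.a₄)) +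
            ((x' ^ 2 + W.a₂ * x' + W.a₄) - (x' ^ 2 - W.a₄)) * (W.a₂ * x' - 2 * W.a₄) := by
          ring
        have h4 : v (W.a₄ * (W.a₂ ^ 2 - 4 * W.a₄)) < 1 := by
          rw [hid]
          apply v.map_add_lt
          · rw [Valuation.map_neg]
            refine v_mul_lt_one_of_le_of_lt v ?_ hlt
            rw [map_pow]; exact pow_le_one' hM 2
          · refine v_mul_lt_one_of_lt_of_le v (v.map_sub_lt hq' hlt) ?_
            refine v.map_sub_le (v_mul_le_one v hM hx'le) ?_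
            rw [map_mul, h2, one_mul]; exact hC.le
        rw [map_mul, hC, hdisc, one_mul] at h4
        exact lt_irrefl _ h4
      rw [hunit, one_pow] at hval
      have h5 : v x * v y' ^ 2 < 1 :=
        Right.mul_lt_one_of_le_of_lt hxle ((pow_lt_one_iff two_ne_zero).mpr hy'lt)
      rw [hval] at h5
      exact lt_irrefl _ h5
    have hx'1 : v x' = 1 :=
      (v_eq_one_of_mul_eq_one v hx'le hq (by rw [← e, map_pow, hy'1, one_pow])).1
    exact key (fixed_of_unit σ φ h₁ h₃ h₆ h2 TI hvp hσ hφ hT' hpT' hx'1 hy'1)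
  · -- nodal reduction
    rcases lt_or_eq_of_le hxle with hxlt | hx1
    · rcases lt_or_ge (v W.a₄) (v x) with hann | hmid
      · exact fixed_of_annulus σ φ h₁ h₃ h₆ hM hC0 hC h2 TI hodd hvp hσ hφ hσg hκ hCg hT hpT
          hxlt hann
      · exact (no_mid_torsion h₁ h₃ h₆ hM hC0 hC h2 TI hodd hvp hT hpT hmid).elim
    · have hx'1 : v x' = 1 := by
        by_contra hne
        have hx'lt : v x' < 1 := lt_of_le_of_ne hx'le hne
        rcases lt_or_ge (v W.a₄) (v x') with hann | hmid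
        · have h3 := (annulus_double h₁ h₃ h₆ hM hC0 h2 hT' hT h2T' hx'lt hann).1
          rw [hx1] at h3
          exact lt_irrefl _ h3
        · exact no_mid_torsion h₁ h₃ h₆ hM hC0 hC h2 TI hodd hvp hT' hpT' hmid
      have hunit : v (x' ^ 2 - W.a₄) = 1 :=
        v_sub_eq_one_of_eq_of_lt v (by rw [map_pow, hx'1, one_pow]) hC
      rw [hunit, one_pow, hx1, one_mul] at hval
      have hy'1 : v y' = 1 := (pow_eq_one_iff_left two_ne_zero).mp hval
      exact key (fixed_of_unit σ φ h₁ h₃ h₆ h2 TI hvp hσ hφ hT' hpT' hx'1 hy'1)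

end fixed

end Fermat.Agent.S05
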