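import Mathlib.RingTheory.Valuation.Basic

/-!
# Small valuation lemmas used in the proof of S05
-/

set_option autoImplicit false

namespace Fermat.Agent.S05

variable {K : Type*} [Field K] {Γ₀ : Type*} [LinearOrderedCommGroupWithZero Γ₀]
  (v : Valuation K Γ₀)

theorem v_pos {a : K} (ha : a ≠ 0) : 0 < v a := zero_lt_iff.mpr ((v.ne_zero_iff).mpr ha)

theorem v_mul_lt_one_of_lt_of_le {a b : K} (ha : v a < 1) (hb : v b ≤ 1) : v (a * b) < 1 := by
  rw [map_mul]; exact mul_lt_one_of_lt_of_le ha hb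

theorem v_mul_lt_one_of_le_of_lt {a b : K} (ha : v a ≤ 1) (hb : v b < 1) : v (a * b) < 1 := by
  rw [mul_comm]; exact v_mul_lt_one_of_lt_of_le v hb ha

theorem v_mul_le_one {a b : K} (ha : v a ≤ 1) (hb : v b ≤ 1) : v (a * b) ≤ 1 := by
  rw [map_mul]; exact mul_le_one' ha hb

theorem v_add_eq_one_of_eq_of_lt {a b : K} (ha : v a = 1) (hb : v b < 1) : v (a + b) = 1 := by
  rw [v.map_add_eq_of_lt_left (by rw [ha]; exact hb), ha]

theorem v_sub_eq_one_of_eq_of_lt {a b : K} (ha : v a = 1) (hb : v b < 1) : v (a - b) = 1 := by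
  rw [v.map_sub_eq_of_lt_left (by rw [ha]; exact hb), ha]

theorem v_add_eq_one_of_lt_of_eq {a b : K} (ha : v a < 1) (hb : v b = 1) : v (a + b) = 1 := by
  rw [add_comm]; exact v_add_eq_one_of_eq_of_lt v hb ha

theorem v_sub_eq_one_of_lt_of_eq {a b : K} (ha : v a < 1) (hb : v b = 1) : v (a - b) = 1 := by
  rw [v.map_sub_swap]; exact v_sub_eq_one_of_eq_of_lt v hb ha

theorem v_eq_one_of_mul_eq_one {a b : K} (ha : v a ≤ 1) (hb : v b ≤ 1) (h : v (a * b) = 1) :
    v a = 1 ∧ v b = 1 := by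
  rw [map_mul] at h
  constructor
  · refine le_antisymm ha ?_
    calc (1 : Γ₀) = v a * v b := h.symm
      _ ≤ v a * 1 := mul_le_mul_right hb _
      _ = v a := mul_one _
  · refine le_antisymm hb ?_
    calc (1 : Γ₀) = v a * v b := h.symm
      _ ≤ 1 * v b := mul_le_mul_left ha _
      _ = v b := one_mul _

theorem v_le_one_of_sq_le_one {a : K} (h : v (a ^ 2) ≤ 1) : v a ≤ 1 := by
  rw [map_pow] at h
  by_contra hc
  have hc' : 1 < v a := not_le.mp hc
  have : (1 : Γ₀) < v a ^ 2 := one_lt_pow' hc' two_ne_zero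
  exact absurd h (not_le.mpr this)

theorem v_lt_one_of_sq_lt_one {a : K} (h : v (a ^ 2) < 1) : v a < 1 := by
  rw [map_pow] at h
  by_contra hc
  have hc' : 1 ≤ v a := not_lt.mp hc
  have : (1 : Γ₀) ≤ v a ^ 2 := one_le_pow_of_one_le' hc' 2
  exact absurd h (not_lt.mpr this)

theorem v_eq_one_of_sq_eq_one {a : K} (h : v (a ^ 2) = 1) : v a = 1 := by
  rw [map_pow] at h
  exact (pow_eq_one_iff_left two_ne_zero).mp h

theorem v_sq_lt_one {a : K} (h : v a < 1) : v (a ^ 2) < 1 := by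
  rw [pow_two]; exact v_mul_lt_one_of_lt_of_le v h h.le

theorem v_natCast_le_one (n : ℕ) : v (n : K) ≤ 1 := by
  induction n with
  | zero => simp
  | succ n ih =>
    rw [Nat.cast_succ]
    exact v.map_add_le ih (by rw [map_one])

theorem v_one_lt_inv {a : K} (ha : a ≠ 0) (h : v a < 1) : 1 < v a⁻¹ := by
  rw [map_inv₀]
  exact (one_lt_inv₀ (v_pos v ha)).mpr h

/-- `v (a / b) < 1` iff `v a < v b`. -/
theorem v_div_lt_one_iff {a b : K} (hb : b ≠ 0) : v (a / b) < 1 ↔ v a < v b := by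
  rw [map_div₀]; exact div_lt_one₀ (v_pos v hb)

theorem v_div_le_one_iff {a b : K} (hb : b ≠ 0) : v (a / b) ≤ 1 ↔ v a ≤ v b := by
  rw [map_div₀]; exact div_le_one₀ (v_pos v hb)

theorem v_div_eq_one_iff {a b : K} (hb : b ≠ 0) : v (a / b) = 1 ↔ v a = v b := by
  rw [map_div₀]; exact div_eq_one_iff_eq ((v.ne_zero_iff).mpr hb)

end Fermat.Agent.S05
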