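import Fermat.Agent.S05.Chord
import Fermat.Agent.S05.Val

/-!
# Valuation bookkeeping along chords of `y^2 = x^3 + M x^2 + C x`
-/

set_option autoImplicit false

namespace Fermat.Agent.S05

variable {K : Type*} [Field K] {Γ₀ : Type*} [LinearOrderedCommGroupWithZero Γ₀]
  (v : Valuation K Γ₀)

section algebra

variable {M C x y x₁ y₁ x₂ y₂ x₃ y₃ ℓ β : K}

theorem rho_sq (hx : x ≠ 0) (hE : y ^ 2 = x ^ 3 + M * x ^ 2 + C * x) :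
    (y / x) ^ 2 = x + M + C / x := by
  field_simp
  linear_combination hE

theorem Chord.symm (h : Chord M C x₁ y₁ x₂ y₂ x₃ y₃ ℓ β) : Chord M C x₂ y₂ x₁ y₁ x₃ y₃ ℓ β :=
  ⟨h.l2, h.l1, h.l3, by linear_combination h.e1, by linear_combination h.e2,
    by linear_combination h.e3⟩

theorem Chord.beta_rho (h : Chord M C x₁ y₁ x₂ y₂ x₃ y₃ ℓ β) (hx₁ : x₁ ≠ 0) (hx₂ : x₂ ≠ 0) :
    β * (y₁ / x₁ + y₂ / x₂) = C - x₁ * x₂ := by
  field_simp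
  linear_combination h.beta_mul_add

theorem Chord.x3_mul (h : Chord M C x₁ y₁ x₂ y₂ x₃ y₃ ℓ β) : x₃ * (x₁ * x₂) = β ^ 2 := by
  linear_combination h.e3

/-- `x₃ x₁ x₂ (x₁ - x₂)^2 = (x₁ y₂ - x₂ y₁)^2`. -/
theorem Chord.x3_mul_sq (h : Chord M C x₁ y₁ x₂ y₂ x₃ y₃ ℓ β) :
    x₃ * (x₁ * x₂ * (x₁ - x₂) ^ 2) = (x₁ * y₂ - x₂ * y₁) ^ 2 := by
  rw [← h.beta_mul_sub]
  linear_combination (x₁ - x₂) ^ 2 * h.e3

theorem Chord.rho3 (h : Chord M C x₁ y₁ x₂ y₂ x₃ y₃ ℓ β) (hx₂ : x₂ ≠ 0) (hx₃ : x₃ ≠ 0)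
    (hβ : β ≠ 0) : y₃ / x₃ = -(y₂ / x₂) + β / x₂ - x₁ * x₂ / β := by
  field_simp
  linear_combination (-x₂ * β) * h.l3 + (x₃ * β) * h.l2 + x₂ * h.e3

/-- Adding the point `(0, 0)`. -/
theorem Chord.mul_eq_of_zero (h : Chord M C x₁ y₁ 0 0 x₃ y₃ ℓ β) : x₁ * x₃ = C := by
  have hβ : β = 0 := by
    have := h.e3
    simp only [mul_zero, zero_mul] at this
    exact pow_eq_zero_iff (two_ne_zero) |>.mp this.symm
  have := h.e2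
  rw [hβ] at this
  linear_combination this

end algebra

section valuation

variable {M C x y x₁ y₁ x₂ y₂ x₃ y₃ ℓ β : K}

/-- A pure field identity used for the side of the sum in the first case. -/
theorem U1_identity {s ρ₁ ρ₂ ρ₃ : K} (hx₁ : x₁ ≠ 0) (hx₂ : x₂ ≠ 0) (hs : s ≠ 0)
    (hC0 : x₁ * x₂ - C ≠ 0) (hs_def : s = ρ₁ + ρ₂) (hβs : β * s = C - x₁ * x₂)
    (hd : s * (ρ₁ - ρ₂) = x₁ - x₂ + C / x₁ - C / x₂)
    (r3 : ρ₃ = -ρ₂ + β / x₂ - x₁ * x₂ / β) :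
    ρ₃ - ρ₂ = (C / x₁ - x₂) / s + s * (C / (x₁ * x₂ - C)) := by
  have hC0' : C - x₁ * x₂ ≠ 0 := by
    intro h0; apply hC0; linear_combination -h0
  have hβ' : β = (C - x₁ * x₂) / s := by rw [eq_div_iff hs]; exact hβs
  have e1 : ρ₁ - ρ₂ = (x₁ - x₂ + C / x₁ - C / x₂) / s := by
    rw [eq_div_iff hs]; linear_combination hd
  have e2 : -ρ₂ - ρ₂ = (ρ₁ - ρ₂) - s := by rw [hs_def]; ring
  have e3 : β / x₂ = (C / x₂ - x₁) / s := by rw [hβ']; field_simp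
  have e4 : x₁ * x₂ / β = s * (x₁ * x₂) / (C - x₁ * x₂) := by rw [hβ']; field_simp
  calc ρ₃ - ρ₂ = (-ρ₂ - ρ₂) + β / x₂ - x₁ * x₂ / β := by rw [r3]; ring
    _ = (x₁ - x₂ + C / x₁ - C / x₂) / s - s + (C / x₂ - x₁) / s
        - s * (x₁ * x₂) / (C - x₁ * x₂) := by rw [e2, e1, e3, e4]
    _ = (C / x₁ - x₂) / s + s * (C / (x₁ * x₂ - C)) := by
      have h3 : C - x₁ * x₂ = -(x₁ * x₂ - C) := by ring
      rw [h3]
      field_simp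
      ring

/-- First case: the sum of the two "depths" stays below the depth of `C`. -/
theorem Chord.U1 (h : Chord M C x₁ y₁ x₂ y₂ x₃ y₃ ℓ β) (hx₁ : x₁ ≠ 0) (hx₂ : x₂ ≠ 0)
    (hE₁ : y₁ ^ 2 = x₁ ^ 3 + M * x₁ ^ 2 + C * x₁) (hE₂ : y₂ ^ 2 = x₂ ^ 3 + M * x₂ ^ 2 + C * x₂)
    (hs : v (y₁ / x₁ + y₂ / x₂) = 1) (hC12 : v C < v (x₁ * x₂)) (hC1 : v C < v x₁)
    (h2 : v x₂ < 1) :
    v x₃ = v (x₁ * x₂) ∧ v (y₃ / x₃ - y₂ / x₂) < 1 := by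
  obtain ⟨s, hs_def⟩ : ∃ s, s = y₁ / x₁ + y₂ / x₂ := ⟨_, rfl⟩
  rw [← hs_def] at hs
  have hs0 : s ≠ 0 := by
    intro h0; rw [h0, map_zero] at hs; exact zero_ne_one hs
  have hβs : β * s = C - x₁ * x₂ := by rw [hs_def]; exact h.beta_rho hx₁ hx₂
  have hx12 : x₁ * x₂ ≠ 0 := mul_ne_zero hx₁ hx₂
  have hvβ : v β = v (x₁ * x₂) := by
    have : v (β * s) = v (x₁ * x₂) := by rw [hβs, v.map_sub_eq_of_lt_right hC12]
    rwa [map_mul, hs, mul_one] at this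
  have hβ0 : β ≠ 0 := by
    intro h0; rw [h0, map_zero] at hvβ; exact (v.ne_zero_iff.mpr hx12) hvβ.symm
  have hvx3 : v x₃ = v (x₁ * x₂) := by
    have : v x₃ * v (x₁ * x₂) = v (x₁ * x₂) * v (x₁ * x₂) := by
      rw [← map_mul, h.x3_mul, map_pow, hvβ, pow_two]
    exact mul_right_cancel₀ (v.ne_zero_iff.mpr hx12) this
  have hx3 : x₃ ≠ 0 := by
    intro h0; rw [h0, map_zero] at hvx3; exact (v.ne_zero_iff.mpr hx12) hvx3.symm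
  refine ⟨hvx3, ?_⟩
  have hC0 : x₁ * x₂ - C ≠ 0 := by
    intro h0
    have : v (x₁ * x₂) = v C := by rw [sub_eq_zero.mp h0]
    exact absurd this (ne_of_gt hC12)
  have hd : s * (y₁ / x₁ - y₂ / x₂) = x₁ - x₂ + C / x₁ - C / x₂ := by
    rw [hs_def]; linear_combination rho_sq hx₁ hE₁ - rho_sq hx₂ hE₂
  rw [U1_identity hx₁ hx₂ hs0 hC0 hs_def hβs hd (h.rho3 hx₂ hx3 hβ0)]
  apply v.map_add_lt
  · rw [map_div₀, hs, div_one]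
    exact v.map_sub_lt ((v_div_lt_one_iff v hx₁).mpr hC1) h2
  · rw [map_mul, hs, one_mul, map_div₀, v.map_sub_eq_of_lt_left hC12]
    exact (div_lt_one₀ (v_pos v hx12)).mpr hC12

/-- Second case: the sum of the two "depths" exceeds the depth of `C`. -/
theorem Chord.U2 (h : Chord M C x₁ y₁ x₂ y₂ x₃ y₃ ℓ β) (hx₁ : x₁ ≠ 0) (hx₂ : x₂ ≠ 0)
    (hC : C ≠ 0) (hs : v (y₁ / x₁ + y₂ / x₂) = 1) (hC12 : v (x₁ * x₂) < v C)
    (hC2 : v C < v x₂) :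
    v x₃ = v C ^ 2 / v (x₁ * x₂) ∧ v (y₃ / x₃ + y₂ / x₂) < 1 := by
  have hs0 : y₁ / x₁ + y₂ / x₂ ≠ 0 := by
    intro h0; rw [h0, map_zero] at hs; exact zero_ne_one hs
  have hβs := h.beta_rho hx₁ hx₂
  have hx12 : x₁ * x₂ ≠ 0 := mul_ne_zero hx₁ hx₂
  have hvβ : v β = v C := by
    have : v (β * (y₁ / x₁ + y₂ / x₂)) = v C := by rw [hβs, v.map_sub_eq_of_lt_left hC12]
    rwa [map_mul, hs, mul_one] at this
  have hβ0 : β ≠ 0 := by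
    intro h0; rw [h0, map_zero] at hvβ; exact (v.ne_zero_iff.mpr hC) hvβ.symm
  have hvx3 : v x₃ = v C ^ 2 / v (x₁ * x₂) := by
    rw [eq_div_iff (v.ne_zero_iff.mpr hx12), ← map_mul, h.x3_mul, map_pow, hvβ]
  have hx3 : x₃ ≠ 0 := by
    intro h0; rw [h0, map_zero] at hvx3
    exact (div_ne_zero (pow_ne_zero 2 (v.ne_zero_iff.mpr hC)) (v.ne_zero_iff.mpr hx12)) hvx3.symm
  refine ⟨hvx3, ?_⟩
  have : y₃ / x₃ + y₂ / x₂ = β / x₂ - x₁ * x₂ / β := by rw [h.rho3 hx₂ hx3 hβ0]; ring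
  rw [this]
  apply v.map_sub_lt
  · rw [map_div₀, hvβ]; exact (div_lt_one₀ (v_pos v hx₂)).mpr hC2
  · rw [map_div₀, hvβ]; exact (div_lt_one₀ (v_pos v hC)).mpr hC12

/-- Third case: the sum of the two "depths" is the depth of `C`. -/
theorem Chord.U3 (h : Chord M C x₁ y₁ x₂ y₂ x₃ y₃ ℓ β) (hx₁ : x₁ ≠ 0) (hx₂ : x₂ ≠ 0)
    (hs : v (y₁ / x₁ + y₂ / x₂) = 1) (hC12 : v (x₁ * x₂) = v C) :
    v x₃ ≤ v C := by
  have hβs := h.beta_rho hx₁ hx₂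
  have hx12 : x₁ * x₂ ≠ 0 := mul_ne_zero hx₁ hx₂
  have hvβ : v β ≤ v C := by
    have : v (β * (y₁ / x₁ + y₂ / x₂)) ≤ v C := by
      rw [hβs]; exact v.map_sub_le le_rfl hC12.le
    rwa [map_mul, hs, mul_one] at this
  have h3 : v x₃ * v C = v β ^ 2 := by rw [← hC12, ← map_mul, h.x3_mul, map_pow]
  have hC0 : 0 < v C := by rw [← hC12]; exact v_pos v hx12
  have : v x₃ * v C ≤ v C * v C := by
    rw [h3, pow_two]; exact mul_le_mul' hvβ hvβ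
  exact le_of_mul_le_mul_right this hC0

/-- Opposite sides, the first point deeper than the second. -/
theorem Chord.O1 (h : Chord M C x₁ y₁ x₂ y₂ x₃ y₃ ℓ β) (hx₁ : x₁ ≠ 0) (hx₂ : x₂ ≠ 0)
    (hd : v (y₂ / x₂ - y₁ / x₁) = 1) (h12 : v x₁ < v x₂) (h2 : v x₂ < 1) :
    v x₃ = v x₁ / v x₂ ∧ v (y₃ / x₃ + y₂ / x₂) < 1 := by
  have hx12 : x₁ * x₂ ≠ 0 := mul_ne_zero hx₁ hx₂
  have hb : β * (x₁ - x₂) = x₁ * x₂ * (y₂ / x₂ - y₁ / x₁) := by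
    rw [h.beta_mul_sub]; field_simp
  have hvβ : v β = v x₁ := by
    have : v β * v x₂ = v x₁ * v x₂ := by
      have := congrArg v hb
      rwa [map_mul, map_mul, map_mul, hd, mul_one, v.map_sub_eq_of_lt_right h12] at this
    exact mul_right_cancel₀ (v.ne_zero_iff.mpr hx₂) this
  have hβ0 : β ≠ 0 := by
    intro h0; rw [h0, map_zero] at hvβ; exact (v.ne_zero_iff.mpr hx₁) hvβ.symm
  have hvx3 : v x₃ = v x₁ / v x₂ := by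
    rw [eq_div_iff (v.ne_zero_iff.mpr hx₂)]
    have : v x₃ * v x₂ * v x₁ = v x₁ * v x₁ := by
      have := congrArg v h.x3_mul
      rw [map_mul, map_mul, map_pow, hvβ, pow_two] at this
      rw [← this]; ac_rfl
    exact mul_right_cancel₀ (v.ne_zero_iff.mpr hx₁) this
  have hx3 : x₃ ≠ 0 := by
    intro h0; rw [h0, map_zero] at hvx3
    exact (div_ne_zero (v.ne_zero_iff.mpr hx₁) (v.ne_zero_iff.mpr hx₂)) hvx3.symm
  refine ⟨hvx3, ?_⟩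
  have : y₃ / x₃ + y₂ / x₂ = β / x₂ - x₁ * x₂ / β := by rw [h.rho3 hx₂ hx3 hβ0]; ring
  rw [this]
  apply v.map_sub_lt
  · rw [map_div₀, hvβ]; exact (div_lt_one₀ (v_pos v hx₂)).mpr h12
  · rw [map_div₀, hvβ, map_mul, mul_div_cancel_left₀ _ (v.ne_zero_iff.mpr hx₁)]; exact h2

/-- Opposite sides, equal depths: the sum is not in the maximal ideal. -/
theorem Chord.O3 (h : Chord M C x₁ y₁ x₂ y₂ x₃ y₃ ℓ β) (hx₁ : x₁ ≠ 0) (hx₂ : x₂ ≠ 0)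
    (hne : x₁ ≠ x₂) (hd : v (y₂ / x₂ - y₁ / x₁) = 1) (h12 : v x₁ = v x₂) :
    1 ≤ v x₃ := by
  have hsq : x₁ * y₂ - x₂ * y₁ = x₁ * x₂ * (y₂ / x₂ - y₁ / x₁) := by field_simp
  have h3 := congrArg v h.x3_mul_sq
  rw [hsq, map_mul, map_mul, map_mul, map_pow, map_pow, map_mul, map_mul, hd, h12] at h3
  have hsub : v (x₁ - x₂) ≤ v x₂ := v.map_sub_le h12.le le_rfl
  have hsub0 : 0 < v (x₁ - x₂) := v_pos v (sub_ne_zero.mpr hne)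
  have h20 : 0 < v x₂ := v_pos v hx₂
  by_contra hc
  have hc' : v x₃ < 1 := not_le.mp hc
  have h4 : v x₃ * (v x₂ * v x₂ * v (x₁ - x₂) ^ 2) < 1 * (v x₂ * v x₂ * v (x₁ - x₂) ^ 2) :=
    mul_lt_mul_of_pos_right hc' (mul_pos (mul_pos h20 h20) (pow_pos hsub0 2))
  rw [h3, one_mul] at h4
  have h5 : v x₂ * v x₂ * v (x₁ - x₂) ^ 2 ≤ v x₂ * v x₂ * v x₂ ^ 2 :=
    mul_le_mul' le_rfl (pow_le_pow_left' hsub 2)
  have h6 : (v x₂ * v x₂ * 1) ^ 2 = v x₂ * v x₂ * v x₂ ^ 2 := by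
    simp only [mul_one, pow_two]
  rw [h6] at h4
  exact absurd h5 (not_le.mpr h4)

/-- If `ρ₁² - ρ₂²` is a unit and `ρ₁, ρ₂` are integral then `ρ₁ ± ρ₂` are units. -/
theorem rho_add_unit (hx₁ : x₁ ≠ 0) (hx₂ : x₂ ≠ 0)
    (hE₁ : y₁ ^ 2 = x₁ ^ 3 + M * x₁ ^ 2 + C * x₁) (hE₂ : y₂ ^ 2 = x₂ ^ 3 + M * x₂ ^ 2 + C * x₂)
    (hρ₁ : v (y₁ / x₁) ≤ 1) (hρ₂ : v (y₂ / x₂) ≤ 1)
    (hu : v (x₁ - x₂ + C / x₁ - C / x₂) = 1) :
    v (y₁ / x₁ + y₂ / x₂) = 1 ∧ v (y₁ / x₁ - y₂ / x₂) = 1 := by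
  have hprod : (y₁ / x₁ + y₂ / x₂) * (y₁ / x₁ - y₂ / x₂) = x₁ - x₂ + C / x₁ - C / x₂ := by
    linear_combination rho_sq hx₁ hE₁ - rho_sq hx₂ hE₂
  exact v_eq_one_of_mul_eq_one v (v.map_add_le hρ₁ hρ₂) (v.map_sub_le hρ₁ hρ₂)
    (by rw [hprod]; exact hu)

/-- For a point in the annulus `v C < v x < 1` the ratio `y / x` is a unit. -/
theorem annulus_rho (hx0 : x ≠ 0) (hE : y ^ 2 = x ^ 3 + M * x ^ 2 + C * x) (hM : v M = 1)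
    (hx : v x < 1) (hCx : v C < v x) : v (y / x) = 1 := by
  apply v_eq_one_of_sq_eq_one
  rw [rho_sq hx0 hE]
  have h1 : v (x + M) = 1 := v_add_eq_one_of_lt_of_eq v hx hM
  exact v_add_eq_one_of_eq_of_lt v h1 ((v_div_lt_one_iff v hx0).mpr hCx)

/-- Integrality of `y` from integrality of `x`. -/
theorem v_y_le_one (hE : y ^ 2 = x ^ 3 + M * x ^ 2 + C * x) (hM : v M ≤ 1) (hC : v C ≤ 1)
    (hx : v x ≤ 1) : v y ≤ 1 := by
  apply v_le_one_of_sq_le_one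
  rw [hE]
  refine v.map_add_le (v.map_add_le ?_ ?_) (v_mul_le_one v hC hx)
  · rw [map_pow]; exact pow_le_one' hx 3
  · refine v_mul_le_one v hM ?_
    rw [map_pow]; exact pow_le_one' hx 2

/-- The doubling formula `4 y² x(2P) = (x² - C)²`. -/
theorem Chord.dbl_x3 (h : Chord M C x y x y x₃ y₃ ℓ β)
    (hE : y ^ 2 = x ^ 3 + M * x ^ 2 + C * x) (hy : y ≠ 0)
    (hl : 2 * y * ℓ = 3 * x ^ 2 + 2 * M * x + C) : 4 * y ^ 2 * x₃ = (x ^ 2 - C) ^ 2 := by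
  have hx : x ≠ 0 := by
    rintro rfl
    apply hy
    have : y ^ 2 = 0 := by rw [hE]; ring
    exact pow_eq_zero_iff (two_ne_zero) |>.mp this
  have hb : 2 * y * β = x * (C - x ^ 2) := by
    linear_combination (-2 * y) * h.l1 + 2 * hE - x * hl
  have : x ^ 2 * (4 * y ^ 2 * x₃ - (x ^ 2 - C) ^ 2) = 0 := by
    linear_combination 4 * y ^ 2 * h.e3 + (2 * y * β + x * (C - x ^ 2)) * hb
  have := (mul_eq_zero.mp this).resolve_left (pow_ne_zero 2 hx)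
  linear_combination this

/-- Valuation form of the doubling formula. -/
theorem Chord.dbl_val (h : Chord M C x y x y x₃ y₃ ℓ β)
    (hE : y ^ 2 = x ^ 3 + M * x ^ 2 + C * x) (hy : y ≠ 0)
    (hl : 2 * y * ℓ = 3 * x ^ 2 + 2 * M * x + C) (h2 : v (2 : K) = 1) :
    v x₃ * v y ^ 2 = v (x ^ 2 - C) ^ 2 := by
  have := congrArg v (h.dbl_x3 hE hy hl)
  have h4 : (4 : K) = 2 * 2 := by norm_num
  rw [map_mul, map_mul, map_pow, map_pow, h4, map_mul, h2, one_mul, one_mul] at this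
  rw [← this, mul_comm]

/-- The difference of two points with the same "reduction" lies in the kernel of reduction. -/
theorem Chord.diff (h : Chord M C x₁ y₁ x₂ y₂ x₃ y₃ ℓ β)
    (hlt : v (x₁ - x₂) ^ 2 * (v x₁ * v x₂) < v (x₁ * y₂ - x₂ * y₁) ^ 2) : 1 < v x₃ := by
  have h3 := congrArg v h.x3_mul_sq
  rw [map_mul, map_mul, map_mul, map_pow, map_pow] at h3
  by_contra hc
  have hc' : v x₃ ≤ 1 := not_lt.mp hc
  have : v x₃ * (v x₁ * v x₂ * v (x₁ - x₂) ^ 2) ≤ 1 * (v x₁ * v x₂ * v (x₁ - x₂) ^ 2) :=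
    mul_le_mul' hc' le_rfl
  rw [h3, one_mul] at this
  have h5 : v x₁ * v x₂ * v (x₁ - x₂) ^ 2 = v (x₁ - x₂) ^ 2 * (v x₁ * v x₂) := by ac_rfl
  rw [h5] at this
  exact absurd this (not_le.mpr hlt)

end valuation

end Fermat.Agent.S05
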