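import Fermat.Agent.S05.FormalGroup

/-!
# Reduction is injective on torsion points of `y^2 = x^3 + M x^2 + C x`

Let `v` be a valuation on a field `K` and `W : y^2 = x^3 + M x^2 + C x` with `v M ≤ 1`,
`v C ≤ 1`.

* `sep_sub`: if two points with integral `x` satisfy `v (x₁ - x₂) < v (y₁ + y₂)` then they are
  equal or their difference lies in the formal group `1 < v x`.
* `torsion_eq_of_lt`: two `n`-torsion points (`v n = 1`) with `v (x₁ - x₂) < v (y₁ + y₂)` are equal.
* `torsion_y_unit`: an `n`-torsion point (`n` odd, `v n = 1`, `v 2 = 1`) reducing to a non-singular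
  point of the reduced curve has `v y = 1`.
* `torsion_eq_of_congr`: two such torsion points which are congruent modulo the maximal ideal
  are equal.
-/

set_option autoImplicit false

namespace Fermat.Agent.S05

open WeierstrassCurve WeierstrassCurve.Affine

section sep

variable {K : Type*} [Field K] {Γ₀ : Type*} [LinearOrderedCommGroupWithZero Γ₀]
  (v : Valuation K Γ₀)

/-- Negation on a special curve. -/
theorem sep_neg_some (W : Affine K) (h₁ : W.a₁ = 0) (h₃ : W.a₃ = 0) {x y : K}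
    (h : W.Nonsingular x y) :
    ∃ h' : W.Nonsingular x (-y), -Point.some x y h = Point.some x (-y) h' := by
  have key : ∀ (y' : K), W.negY x y = y' →
      ∃ h' : W.Nonsingular x y', -Point.some x y h = Point.some x y' h' := by
    rintro y' rfl
    exact ⟨_, Point.neg_some h⟩
  exact key _ (special_negY W h₁ h₃ x y)

/-- If the chord slope is not integral then the third point lies in the formal group. -/
theorem sep_of_slope {M C x₁ y₁ x₂ y₂ x₃ y₃ ℓ β : K} (hM : v M ≤ 1)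
    (hch : Chord M C x₁ y₁ x₂ y₂ x₃ y₃ ℓ β) (hx₁ : v x₁ ≤ 1) (hx₂ : v x₂ ≤ 1) (hℓ : 1 < v ℓ) :
    1 < v x₃ := by
  have h1 : x₃ = ℓ ^ 2 - (M + x₁ + x₂) := by linear_combination hch.e1
  have h2 : v (M + x₁ + x₂) ≤ 1 :=
    Valuation.map_add_le v (Valuation.map_add_le v hM hx₁) hx₂
  have h3 : 1 < v (ℓ ^ 2) := by
    rw [map_pow]; exact one_lt_pow₀ hℓ (by norm_num)
  rw [h1, Valuation.map_sub_eq_of_lt_left v (lt_of_le_of_lt h2 h3)]
  exact h3

/-- **Separation.** Two points with integral `x`-coordinates and `v (x₁ - x₂) < v (y₁ + y₂)` are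
equal, or their difference lies in the formal group. -/
theorem sep_sub [DecidableEq K] (W : Affine K) (h₁ : W.a₁ = 0) (h₃ : W.a₃ = 0) (h₆ : W.a₆ = 0)
    (hM : v W.a₂ ≤ 1) {x₁ y₁ x₂ y₂ : K} (hP₁ : W.Nonsingular x₁ y₁) (hP₂ : W.Nonsingular x₂ y₂)
    (hx₁ : v x₁ ≤ 1) (hx₂ : v x₂ ≤ 1) (hlt : v (x₁ - x₂) < v (y₁ + y₂)) :
    (x₁ = x₂ ∧ y₁ = y₂) ∨ ∃ (x₃ y₃ : K) (hP₃ : W.Nonsingular x₃ y₃),
      Point.some x₁ y₁ hP₁ - Point.some x₂ y₂ hP₂ = Point.some x₃ y₃ hP₃ ∧ 1 < v x₃ := by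
  by_cases hx : x₁ = x₂
  · left
    refine ⟨hx, ?_⟩
    have hE₁ := special_equation W h₁ h₃ h₆ hP₁.1
    have hE₂ := special_equation W h₁ h₃ h₆ hP₂.1
    have : (y₁ - y₂) * (y₁ + y₂) = 0 := by rw [hx] at hE₁; linear_combination hE₁ - hE₂
    rcases mul_eq_zero.mp this with h | h
    · exact sub_eq_zero.mp h
    · rw [h, map_zero] at hlt
      exact absurd hlt (not_lt.mpr zero_le)
  · right
    obtain ⟨hP₂', hneg⟩ := sep_neg_some W h₁ h₃ hP₂
    obtain ⟨x₃, y₃, ℓ, β, hP₃, hsum, hch, hsl⟩ :=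
      exists_chord W h₁ h₃ h₆ hP₁ hP₂' (fun h => hx h.1)
    refine ⟨x₃, y₃, hP₃, by rw [sub_eq_add_neg, hneg, hsum], ?_⟩
    rcases hsl with ⟨-, hl⟩ | ⟨h, -⟩
    · have hl' : v ℓ * v (x₁ - x₂) = v (y₁ + y₂) := by
        rw [← map_mul, hl, sub_neg_eq_add]
      have hℓ : 1 < v ℓ := by
        by_contra hc
        have hc := not_lt.mp hc
        have : v ℓ * v (x₁ - x₂) ≤ v (x₁ - x₂) :=
          calc v ℓ * v (x₁ - x₂) ≤ 1 * v (x₁ - x₂) := by gcongr
            _ = v (x₁ - x₂) := one_mul _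
        rw [hl'] at this
        exact absurd hlt (not_lt.mpr this)
      exact sep_of_slope v hM hch hx₁ hx₂ hℓ
    · exact absurd h hx

/-- Two `n`-torsion points (`v n = 1`) with `v (x₁ - x₂) < v (y₁ + y₂)` are equal. -/
theorem torsion_eq_of_lt [DecidableEq K] (W : Affine K) (h₁ : W.a₁ = 0) (h₃ : W.a₃ = 0)
    (h₆ : W.a₆ = 0) (hM : v W.a₂ ≤ 1) (hC : v W.a₄ ≤ 1) (n : ℕ) (hn : v (n : K) = 1)
    {x₁ y₁ x₂ y₂ : K} (hP₁ : W.Nonsingular x₁ y₁) (hP₂ : W.Nonsingular x₂ y₂)
    (hT₁ : n • Point.some x₁ y₁ hP₁ = 0) (hT₂ : n • Point.some x₂ y₂ hP₂ = 0)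
    (hlt : v (x₁ - x₂) < v (y₁ + y₂)) : x₁ = x₂ ∧ y₁ = y₂ := by
  have hx₁ := torsion_integral v W h₁ h₃ h₆ hM hC n hn x₁ y₁ hP₁ hT₁
  have hx₂ := torsion_integral v W h₁ h₃ h₆ hM hC n hn x₂ y₂ hP₂ hT₂
  rcases sep_sub v W h₁ h₃ h₆ hM hP₁ hP₂ hx₁ hx₂ hlt with h | ⟨x₃, y₃, hP₃, hsub, hx₃⟩
  · exact h
  · have hT₃ : n • Point.some x₃ y₃ hP₃ = 0 := by
      rw [← hsub, nsmul_sub, hT₁, hT₂, sub_zero]
    exact absurd (torsion_integral v W h₁ h₃ h₆ hM hC n hn x₃ y₃ hP₃ hT₃) (not_le.mpr hx₃)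

/-- At a point with `v y < 1` reducing to a non-singular point, the derivative
`3 x^2 + 2 M x + C` is a unit. -/
theorem sep_deriv_unit {M C x y : K} (hM : v M ≤ 1)
    (hδ : v (M ^ 2 - 4 * C) = 1) (h2 : v (2 : K) = 1)
    (hE : y ^ 2 = x ^ 3 + M * x ^ 2 + C * x) (hx : v x ≤ 1) (hy : v y < 1)
    (hns : v x = 1 ∨ v C = 1) : v (3 * x ^ 2 + 2 * M * x + C) = 1 := by
  have h3 : v (3 : K) ≤ 1 := by
    have : (3 : K) = 2 + 1 := by norm_num
    rw [this]
    exact Valuation.map_add_le v h2.le (by simp)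
  have h4 : v (4 : K) = 1 := by
    have : (4 : K) = 2 * 2 := by norm_num
    rw [this, map_mul, h2, one_mul]
  by_cases hx1 : v x = 1
  · -- `g = x^2 + M x + C` is in the maximal ideal
    have hxg : v (x * (x ^ 2 + M * x + C)) < 1 := by
      have : x * (x ^ 2 + M * x + C) = y ^ 2 := by linear_combination -hE
      rw [this, map_pow]
      exact pow_lt_one₀ zero_le hy (by norm_num)
    rw [map_mul, hx1, one_mul] at hxg
    have h4g : v (4 * (x ^ 2 + M * x + C)) < 1 := by
      rw [map_mul, h4, one_mul]; exact hxg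
    have hsq : v ((2 * x + M) ^ 2) = 1 := by
      have : (2 * x + M) ^ 2 = (M ^ 2 - 4 * C) + 4 * (x ^ 2 + M * x + C) := by ring
      rw [this, Valuation.map_add_eq_of_lt_left v (by rw [hδ]; exact h4g), hδ]
    have hlin : v (2 * x + M) = 1 := by
      rw [map_pow] at hsq
      exact (pow_eq_one_iff_of_nonneg zero_le (by norm_num)).mp hsq
    have : 3 * x ^ 2 + 2 * M * x + C = x * (2 * x + M) + (x ^ 2 + M * x + C) := by ring
    rw [this, Valuation.map_add_eq_of_lt_left v (by rw [map_mul, hx1, hlin, one_mul]; exact hxg),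
      map_mul, hx1, hlin, one_mul]
  · have hC1 : v C = 1 := hns.resolve_left hx1
    have hxlt : v x < 1 := lt_of_le_of_ne hx hx1
    have h5 : v (x * (3 * x + 2 * M)) < 1 := by
      rw [map_mul]
      have : v (3 * x + 2 * M) ≤ 1 := by
        apply Valuation.map_add_le v
        · rw [map_mul]
          calc v 3 * v x ≤ 1 * 1 := by gcongr
            _ = 1 := one_mul 1
        · rw [map_mul, h2, one_mul]; exact hM
      calc v x * v (3 * x + 2 * M) ≤ v x * 1 := by gcongr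
        _ = v x := mul_one _
        _ < 1 := hxlt
    have : 3 * x ^ 2 + 2 * M * x + C = C + x * (3 * x + 2 * M) := by ring
    rw [this, Valuation.map_add_eq_of_lt_left v (by rw [hC1]; exact h5), hC1]

/-- An `n`-torsion point (`n` odd, `v n = 1`, `v 2 = 1`) reducing to a non-singular point of the
reduced curve has `v y = 1`. -/
theorem torsion_y_unit [DecidableEq K] (W : Affine K) (h₁ : W.a₁ = 0) (h₃ : W.a₃ = 0)
    (h₆ : W.a₆ = 0) (hM : v W.a₂ ≤ 1) (hC : v W.a₄ ≤ 1)
    (hδ : v (W.a₂ ^ 2 - 4 * W.a₄) = 1) (h2 : v (2 : K) = 1) (n : ℕ) (hodd : Odd n)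
    (hn : v (n : K) = 1) {x y : K} (hP : W.Nonsingular x y)
    (hT : n • Point.some x y hP = 0) (hns : v x = 1 ∨ v W.a₄ = 1) : v y = 1 := by
  have hx := torsion_integral v W h₁ h₃ h₆ hM hC n hn x y hP hT
  have hE := special_equation W h₁ h₃ h₆ hP.1
  have hy : v y ≤ 1 := by
    have : v (y ^ 2) ≤ 1 := by
      rw [hE]
      apply Valuation.map_add_le v (Valuation.map_add_le v _ _) _
      · rw [map_pow]; exact pow_le_one₀ zero_le hx
      · rw [map_mul, map_pow]
        calc v W.a₂ * v x ^ 2 ≤ 1 * 1 := by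
              have := pow_le_one₀ (n := 2) zero_le hx
              gcongr
          _ = 1 := one_mul 1
      · rw [map_mul]
        calc v W.a₄ * v x ≤ 1 * 1 := by gcongr
          _ = 1 := one_mul 1
    rw [map_pow] at this
    by_contra hc
    have hc := not_le.mp hc
    exact absurd this (not_le.mpr (one_lt_pow₀ hc (by norm_num)))
  by_contra hne
  have hylt : v y < 1 := lt_of_le_of_ne hy hne
  have h20 : (2 : K) ≠ 0 := by
    intro h; rw [h, map_zero] at h2; exact zero_ne_one h2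
  by_cases hy0 : y = 0
  · -- `2 T = 0`, impossible for a nonzero torsion point of odd order
    have hdouble : Point.some x y hP + Point.some x y hP = 0 :=
      Point.add_of_Y_eq rfl (by rw [special_negY W h₁ h₃, hy0, neg_zero])
    obtain ⟨k, hk⟩ := hodd
    have : Point.some x y hP = 0 := by
      have h2k : (2 * k) • Point.some x y hP = 0 := by
        rw [mul_nsmul, two_nsmul, hdouble, nsmul_zero]
      have := hT
      rw [hk, add_nsmul, h2k, zero_add, one_nsmul] at this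
      exact this
    exact Point.some_ne_zero hP this
  · have hxy : ¬(x = x ∧ y = -y) := by
      rintro ⟨-, h⟩
      apply hy0
      have : 2 * y = 0 := by linear_combination h
      exact (mul_eq_zero.mp this).resolve_left h20
    obtain ⟨x₃, y₃, ℓ, β, hP₃, hsum, hch, hsl⟩ := exists_chord W h₁ h₃ h₆ hP hP hxy
    rcases hsl with ⟨h, -⟩ | ⟨-, -, -, hl⟩
    · exact h rfl
    · have hder := sep_deriv_unit v hM hδ h2 hE hx hylt hns
      have hl' : v y * v ℓ = 1 := by
        have := congrArg v hl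
        rwa [map_mul, map_mul, h2, one_mul, hder] at this
      have hℓ : 1 < v ℓ := by
        by_contra hc
        have hc := not_lt.mp hc
        have : v y * v ℓ ≤ v y :=
          calc v y * v ℓ ≤ v y * 1 := by gcongr
            _ = v y := mul_one _
        rw [hl'] at this
        exact absurd hylt (not_lt.mpr this)
      have hx₃ := sep_of_slope v hM hch hx hx hℓ
      have hT₃ : n • Point.some x₃ y₃ hP₃ = 0 := by
        rw [← hsum, nsmul_add, hT, add_zero]
      exact absurd (torsion_integral v W h₁ h₃ h₆ hM hC n hn x₃ y₃ hP₃ hT₃) (not_le.mpr hx₃)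

/-- Two `n`-torsion points congruent modulo the maximal ideal, reducing to a non-singular point of
the reduced curve, are equal (`n` odd, `v n = 1`, `v 2 = 1`). -/
theorem torsion_eq_of_congr [DecidableEq K] (W : Affine K) (h₁ : W.a₁ = 0) (h₃ : W.a₃ = 0)
    (h₆ : W.a₆ = 0) (hM : v W.a₂ ≤ 1) (hC : v W.a₄ ≤ 1)
    (hδ : v (W.a₂ ^ 2 - 4 * W.a₄) = 1) (h2 : v (2 : K) = 1) (n : ℕ) (hodd : Odd n)
    (hn : v (n : K) = 1) {x y x' y' : K} (hP : W.Nonsingular x y) (hP' : W.Nonsingular x' y')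
    (hT : n • Point.some x y hP = 0) (hT' : n • Point.some x' y' hP' = 0)
    (hns : v x = 1 ∨ v W.a₄ = 1) (hx : v (x' - x) < 1) (hy : v (y' - y) < 1) :
    x' = x ∧ y' = y := by
  have hy1 := torsion_y_unit v W h₁ h₃ h₆ hM hC hδ h2 n hodd hn hP hT hns
  have hsum : v (y' + y) = 1 := by
    have : y' + y = 2 * y + (y' - y) := by ring
    rw [this, Valuation.map_add_eq_of_lt_left v (by rw [map_mul, h2, hy1, one_mul]; exact hy),
      map_mul, h2, hy1, one_mul]
  exact torsion_eq_of_lt v W h₁ h₃ h₆ hM hC n hn hP' hP hT' hT (by rw [hsum]; exact hx)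

end sep

end Fermat.Agent.S05
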